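/-
S25 (Jacobian), package A1, piece TENSOR + DUAL.  Author: helper1308.
Built on `Fermat/Agent/S25/Core.lean` (helper5425) only.

Contents
* bridge between the "Core-style" localisation axioms and Mathlib's `IsLocalization.Away` /
  `IsLocalizedModule`;
* `tensor N N' : GluedModule 𝔹`, `ihom N N'`, `dual N`, `unit 𝔹`;
* line bundles are closed under tensor and dual; `N ⊗ N^∨ ≅ O`.
-/
import Fermat.Agent.S25.Core

set_option autoImplicit false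

universe u

namespace Fermat.Agent.S25.ATLAS.TW.T1308

open scoped TensorProduct

/-! ## Generic bridge: Core-style localisation axioms versus Mathlib's classes -/

section Bridge

variable {B B' : Type*} [CommRing B] [CommRing B'] [Algebra B B'] (f : B) (u : B')

/-- Core-style axioms for `B' = B[1/f]` (with `u = 1/f`) give `IsLocalization.Away f B'`. -/
theorem isLocalization_away_of_core (hu : algebraMap B B' f * u = 1)
    (hsurj : ∀ y : B', ∃ (a : B) (n : ℕ), y = algebraMap B B' a * u ^ n)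
    (hker : ∀ a : B, algebraMap B B' a = 0 → ∃ n : ℕ, f ^ n * a = 0) :
    IsLocalization.Away f B' := by
  rw [IsLocalization.Away, isLocalization_iff]
  refine ⟨?_, ?_, ?_⟩
  · rintro ⟨_, n, rfl⟩
    rw [map_pow]
    exact (IsUnit.of_mul_eq_one _ hu).pow n
  · intro z
    obtain ⟨a, n, rfl⟩ := hsurj z
    refine ⟨(a, ⟨f ^ n, n, rfl⟩), ?_⟩
    simp only [map_pow]
    rw [mul_assoc, ← mul_pow, mul_comm u, hu, one_pow, mul_one]
  · intro x y hxy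
    obtain ⟨n, hn⟩ := hker (x - y) (by rw [map_sub, hxy, sub_self])
    refine ⟨⟨f ^ n, n, rfl⟩, ?_⟩
    rw [mul_sub, sub_eq_zero] at hn
    exact hn

variable {M M' : Type*} [AddCommGroup M] [AddCommGroup M'] [Module B M] [Module B M']
  [Module B' M'] [IsScalarTower B B' M'] (j : M →ₗ[B] M')

/-- Core-style axioms for `M' = M[1/f]` give `IsLocalizedModule (powers f) j`. -/
theorem isLocalizedModule_of_core (hu : algebraMap B B' f * u = 1)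
    (hsurj : ∀ y : M', ∃ (n : M) (m : ℕ), y = u ^ m • j n)
    (hker : ∀ n : M, j n = 0 → ∃ m : ℕ, f ^ m • n = 0) :
    IsLocalizedModule (Submonoid.powers f) j := by
  have hfu : ∀ (m : ℕ) (y : M'), f ^ m • u ^ m • y = y := fun m y => by
    rw [← algebraMap_smul B' (f ^ m) (u ^ m • y), smul_smul, map_pow, ← mul_pow, hu, one_pow,
      one_smul]
  have huf : ∀ (m : ℕ) (y : M'), u ^ m • f ^ m • y = y := fun m y => by
    rw [← algebraMap_smul B' (f ^ m) y, smul_smul, map_pow, ← mul_pow, mul_comm u, hu, one_pow,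
      one_smul]
  refine ⟨?_, ?_, ?_⟩
  · rintro ⟨_, m, rfl⟩
    rw [Module.End.isUnit_iff]
    refine ⟨fun x y hxy => ?_, fun y => ⟨u ^ m • y, ?_⟩⟩
    · simp only [Module.algebraMap_end_apply] at hxy
      rw [← huf m x, ← huf m y, hxy]
    · simp only [Module.algebraMap_end_apply]
      exact hfu m y
  · intro y
    obtain ⟨n, m, rfl⟩ := hsurj y
    exact ⟨(n, ⟨f ^ m, m, rfl⟩), hfu m (j n)⟩
  · intro x₁ x₂ h
    obtain ⟨m, hm⟩ := hker (x₁ - x₂) (by rw [map_sub, h, sub_self])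
    refine ⟨⟨f ^ m, m, rfl⟩, ?_⟩
    rw [smul_sub, sub_eq_zero] at hm
    exact hm

/-- Converse bridge, surjectivity part. -/
theorem core_surj_of_isLocalizedModule (hu : algebraMap B B' f * u = 1)
    [IsLocalizedModule (Submonoid.powers f) j] (y : M') :
    ∃ (n : M) (m : ℕ), y = u ^ m • j n := by
  obtain ⟨⟨n, ⟨_, m, rfl⟩⟩, h⟩ := IsLocalizedModule.surj (Submonoid.powers f) j y
  refine ⟨n, m, ?_⟩
  have h' : f ^ m • y = j n := h
  rw [← h', ← algebraMap_smul B' (f ^ m) y, smul_smul, map_pow, ← mul_pow, mul_comm u, hu,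
    one_pow, one_smul]

/-- Converse bridge, kernel part. -/
theorem core_ker_of_isLocalizedModule [IsLocalizedModule (Submonoid.powers f) j] (n : M)
    (h : j n = 0) : ∃ m : ℕ, f ^ m • n = 0 := by
  obtain ⟨⟨_, m, rfl⟩, hc⟩ :=
    IsLocalizedModule.exists_of_eq (S := Submonoid.powers f) (f := j) (x₁ := n) (x₂ := 0)
      (by rw [h, map_zero])
  refine ⟨m, ?_⟩
  have hc' : f ^ m • n = f ^ m • (0 : M) := hc
  rw [hc', smul_zero]

end Bridge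

/-! ## The chart instances (scoped) -/

section Charts

variable {R : Type u} [CommRing R]

/-- `B₁₂` as a `B₁`-algebra via `r₁`.  A scoped instance: `open scoped Fermat.Agent.S25.H1308`. -/
@[reducible] def algebra₁ (𝔹 : TwoChart R) : Algebra 𝔹.B₁ 𝔹.B₁₂ := 𝔹.r₁.toRingHom.toAlgebra

/-- `B₁₂` as a `B₂`-algebra via `r₂`. -/
@[reducible] def algebra₂ (𝔹 : TwoChart R) : Algebra 𝔹.B₂ 𝔹.B₁₂ := 𝔹.r₂.toRingHom.toAlgebra

attribute [scoped instance] algebra₁ algebra₂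

variable {𝔹 : TwoChart R}

theorem algebraMap₁_apply (b : 𝔹.B₁) : algebraMap 𝔹.B₁ 𝔹.B₁₂ b = 𝔹.r₁ b := rfl

theorem algebraMap₂_apply (b : 𝔹.B₂) : algebraMap 𝔹.B₂ 𝔹.B₁₂ b = 𝔹.r₂ b := rfl

scoped instance isScalarTower_R₁ : IsScalarTower R 𝔹.B₁ 𝔹.B₁₂ :=
  IsScalarTower.of_algebraMap_eq fun x => (𝔹.r₁.commutes x).symm

scoped instance isScalarTower_R₂ : IsScalarTower R 𝔹.B₂ 𝔹.B₁₂ :=
  IsScalarTower.of_algebraMap_eq fun x => (𝔹.r₂.commutes x).symm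

variable (𝔹) in
/-- `B₁₂ = B₁[1/f]` in Mathlib form. -/
scoped instance isLocalization₁ : IsLocalization.Away 𝔹.f 𝔹.B₁₂ :=
  isLocalization_away_of_core 𝔹.f (𝔹.r₂ 𝔹.g) 𝔹.fg 𝔹.surj₁ 𝔹.ker₁

variable (𝔹) in
/-- `B₁₂ = B₂[1/g]` in Mathlib form. -/
scoped instance isLocalization₂ : IsLocalization.Away 𝔹.g 𝔹.B₁₂ :=
  isLocalization_away_of_core 𝔹.g (𝔹.r₁ 𝔹.f) (by rw [mul_comm]; exact 𝔹.fg) 𝔹.surj₂ 𝔹.ker₂

/-- The `B₁`-module structure on `N₁₂` (restriction of scalars along `r₁`). -/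
@[reducible] def module₁ (N : GluedModule 𝔹) : Module 𝔹.B₁ N.N₁₂ :=
  Module.compHom N.N₁₂ 𝔹.r₁.toRingHom

/-- The `B₂`-module structure on `N₁₂` (restriction of scalars along `r₂`). -/
@[reducible] def module₂ (N : GluedModule 𝔹) : Module 𝔹.B₂ N.N₁₂ :=
  Module.compHom N.N₁₂ 𝔹.r₂.toRingHom

attribute [scoped instance] module₁ module₂

variable (N : GluedModule 𝔹)

theorem smul₁_def (b : 𝔹.B₁) (y : N.N₁₂) : b • y = 𝔹.r₁ b • y := rfl

theorem smul₂_def (b : 𝔹.B₂) (y : N.N₁₂) : b • y = 𝔹.r₂ b • y := rfl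

scoped instance isScalarTower₁ : IsScalarTower 𝔹.B₁ 𝔹.B₁₂ N.N₁₂ :=
  IsScalarTower.of_algebraMap_smul fun _ _ => rfl

scoped instance isScalarTower₂ : IsScalarTower 𝔹.B₂ 𝔹.B₁₂ N.N₁₂ :=
  IsScalarTower.of_algebraMap_smul fun _ _ => rfl

scoped instance isScalarTower_R_module₁ : IsScalarTower R 𝔹.B₁ N.N₁₂ :=
  ⟨fun r b y => by
    rw [smul₁_def, smul₁_def, Algebra.smul_def, map_mul, AlgHom.commutes, ← smul_smul,
      algebraMap_smul]⟩

scoped instance isScalarTower_R_module₂ : IsScalarTower R 𝔹.B₂ N.N₁₂ :=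
  ⟨fun r b y => by
    rw [smul₂_def, smul₂_def, Algebra.smul_def, map_mul, AlgHom.commutes, ← smul_smul,
      algebraMap_smul]⟩

/-- `ι₁` as a `B₁`-linear map. -/
def ι₁ₗ : N.N₁ →ₗ[𝔹.B₁] N.N₁₂ where
  toFun := N.ι₁
  map_add' := N.ι₁.map_add
  map_smul' := N.ι₁_smul

/-- `ι₂` as a `B₂`-linear map. -/
def ι₂ₗ : N.N₂ →ₗ[𝔹.B₂] N.N₁₂ where
  toFun := N.ι₂
  map_add' := N.ι₂.map_add
  map_smul' := N.ι₂_smul

@[simp] theorem ι₁ₗ_apply (n : N.N₁) : ι₁ₗ N n = N.ι₁ n := rfl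

@[simp] theorem ι₂ₗ_apply (n : N.N₂) : ι₂ₗ N n = N.ι₂ n := rfl

/-- `N₁₂ = N₁[1/f]` in Mathlib form. -/
scoped instance isLocalizedModule₁ : IsLocalizedModule (Submonoid.powers 𝔹.f) (ι₁ₗ N) :=
  isLocalizedModule_of_core 𝔹.f (𝔹.r₂ 𝔹.g) (ι₁ₗ N) 𝔹.fg N.surj₁ N.ker₁

/-- `N₁₂ = N₂[1/g]` in Mathlib form. -/
scoped instance isLocalizedModule₂ : IsLocalizedModule (Submonoid.powers 𝔹.g) (ι₂ₗ N) :=
  isLocalizedModule_of_core 𝔹.g (𝔹.r₁ 𝔹.f) (ι₂ₗ N) (by rw [mul_comm]; exact 𝔹.fg) N.surj₂ N.ker₂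

end Charts

/-! ## Tensor product of glued modules -/

section Tensor

variable {R : Type u} [CommRing R] {𝔹 : TwoChart R} (N N' : GluedModule 𝔹)

/-- Auxiliary: the additive map `M ⊗[B] M' → P ⊗[B'] P'` induced by two additive maps that
are semilinear along `r : B → B'`. -/
def tensorAddHom {B B' : Type*} [CommRing B] [CommRing B'] (r : B → B')
    {M M' P P' : Type*} [AddCommGroup M] [AddCommGroup M'] [AddCommGroup P] [AddCommGroup P']
    [Module B M] [Module B M'] [Module B' P] [Module B' P']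
    (j : M → P) (j' : M' → P') (hadd : ∀ a b, j (a + b) = j a + j b)
    (hadd' : ∀ a b, j' (a + b) = j' a + j' b) (hj : ∀ (b : B) (m : M), j (b • m) = r b • j m)
    (hj' : ∀ (b : B) (m : M'), j' (b • m) = r b • j' m) : M ⊗[B] M' →+ P ⊗[B'] P' :=
  TensorProduct.liftAddHom
    (AddMonoidHom.mk' (fun m => AddMonoidHom.mk' (fun m' => j m ⊗ₜ[B'] j' m')
      (fun a b => by rw [hadd', TensorProduct.tmul_add]))
      (fun a b => by ext m'; simp [hadd, TensorProduct.add_tmul]))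
    (fun b m m' => by
      simp only [AddMonoidHom.mk'_apply, hj, hj', TensorProduct.smul_tmul])

section
variable {B B' : Type*} [CommRing B] [CommRing B'] (r : B → B')
    {M M' P P' : Type*} [AddCommGroup M] [AddCommGroup M'] [AddCommGroup P] [AddCommGroup P']
    [Module B M] [Module B M'] [Module B' P] [Module B' P']
    (j : M → P) (j' : M' → P') (hadd : ∀ a b, j (a + b) = j a + j b)
    (hadd' : ∀ a b, j' (a + b) = j' a + j' b) (hj : ∀ (b : B) (m : M), j (b • m) = r b • j m)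
    (hj' : ∀ (b : B) (m : M'), j' (b • m) = r b • j' m)

@[simp] theorem tensorAddHom_tmul (m : M) (m' : M') :
    tensorAddHom r j j' hadd hadd' hj hj' (m ⊗ₜ[B] m') = j m ⊗ₜ[B'] j' m' := rfl

theorem tensorAddHom_smul (b : B) (t : M ⊗[B] M') :
    tensorAddHom r j j' hadd hadd' hj hj' (b • t) = r b • tensorAddHom r j j' hadd hadd' hj hj' t := by
  induction t using TensorProduct.induction_on with
  | zero => simp
  | tmul m m' => simp [TensorProduct.smul_tmul', hj]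
  | add x y hx hy => rw [smul_add, map_add, hx, hy, map_add, smul_add]

end

section
variable {B B' : Type*} [CommRing B] [CommRing B'] [Algebra B B'] (f : B) (u : B')
    [IsLocalization.Away f B']
    {M M' P P' : Type*} [AddCommGroup M] [AddCommGroup M'] [AddCommGroup P] [AddCommGroup P']
    [Module B M] [Module B M'] [Module B' P] [Module B' P'] [Module B P] [Module B P']
    [IsScalarTower B B' P] [IsScalarTower B B' P']
    (j : M →ₗ[B] P) (j' : M' →ₗ[B] P')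
    [IsLocalizedModule (Submonoid.powers f) j] [IsLocalizedModule (Submonoid.powers f) j']
    (hadd : ∀ a b, j (a + b) = j a + j b)
    (hadd' : ∀ a b, j' (a + b) = j' a + j' b)
    (hj : ∀ (b : B) (m : M), j (b • m) = algebraMap B B' b • j m)
    (hj' : ∀ (b : B) (m : M'), j' (b • m) = algebraMap B B' b • j' m)

omit [IsLocalizedModule (Submonoid.powers f) j] [IsLocalizedModule (Submonoid.powers f) j'] in
theorem moduleTensorEquiv_tensorAddHom (t : M ⊗[B] M') :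
    IsLocalization.moduleTensorEquiv (Submonoid.powers f) B' P P'
      (tensorAddHom (algebraMap B B') j j' hadd hadd' hj hj' t) = TensorProduct.map j j' t := by
  induction t using TensorProduct.induction_on with
  | zero => simp
  | tmul m m' => rw [tensorAddHom_tmul, TensorProduct.map_tmul]; rfl
  | add x y hx hy => rw [map_add, map_add, hx, hy, map_add]

theorem tensorAddHom_ker (t : M ⊗[B] M')
    (h : tensorAddHom (algebraMap B B') j j' hadd hadd' hj hj' t = 0) :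
    ∃ m : ℕ, f ^ m • t = 0 := by
  apply core_ker_of_isLocalizedModule f (TensorProduct.map j j') t
  rw [← moduleTensorEquiv_tensorAddHom f j j' hadd hadd' hj hj', h, map_zero]

theorem tensorAddHom_surj (hu : algebraMap B B' f * u = 1) (y : P ⊗[B'] P') :
    ∃ (t : M ⊗[B] M') (m : ℕ),
      y = u ^ m • tensorAddHom (algebraMap B B') j j' hadd hadd' hj hj' t := by
  obtain ⟨t, m, ht⟩ := core_surj_of_isLocalizedModule f u (TensorProduct.map j j') hu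
    (IsLocalization.moduleTensorEquiv (Submonoid.powers f) B' P P' y)
  refine ⟨t, m, ?_⟩
  apply (IsLocalization.moduleTensorEquiv (Submonoid.powers f) B' P P').injective
  rw [ht, map_smul, moduleTensorEquiv_tensorAddHom]

end

/-- The restriction map `N₁ ⊗[B₁] N'₁ → N₁₂ ⊗[B₁₂] N'₁₂`. -/
def tensorι₁ : N.N₁ ⊗[𝔹.B₁] N'.N₁ →ₗ[R] N.N₁₂ ⊗[𝔹.B₁₂] N'.N₁₂ where
  toFun := tensorAddHom 𝔹.r₁ N.ι₁ N'.ι₁ (map_add _) (map_add _) N.ι₁_smul N'.ι₁_smul
  map_add' := map_add _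
  map_smul' := fun c t => by
    simp only [RingHom.id_apply]
    rw [← algebraMap_smul 𝔹.B₁ c t, tensorAddHom_smul, AlgHom.commutes, algebraMap_smul]

/-- The restriction map `N₂ ⊗[B₂] N'₂ → N₁₂ ⊗[B₁₂] N'₁₂`. -/
def tensorι₂ : N.N₂ ⊗[𝔹.B₂] N'.N₂ →ₗ[R] N.N₁₂ ⊗[𝔹.B₁₂] N'.N₁₂ where
  toFun := tensorAddHom 𝔹.r₂ N.ι₂ N'.ι₂ (map_add _) (map_add _) N.ι₂_smul N'.ι₂_smul
  map_add' := map_add _
  map_smul' := fun c t => by
    simp only [RingHom.id_apply]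
    rw [← algebraMap_smul 𝔹.B₂ c t, tensorAddHom_smul, AlgHom.commutes, algebraMap_smul]

@[simp] theorem tensorι₁_tmul (n : N.N₁) (n' : N'.N₁) :
    tensorι₁ N N' (n ⊗ₜ[𝔹.B₁] n') = N.ι₁ n ⊗ₜ[𝔹.B₁₂] N'.ι₁ n' := rfl

@[simp] theorem tensorι₂_tmul (n : N.N₂) (n' : N'.N₂) :
    tensorι₂ N N' (n ⊗ₜ[𝔹.B₂] n') = N.ι₂ n ⊗ₜ[𝔹.B₁₂] N'.ι₂ n' := rfl

theorem tensorι₁_smul (b : 𝔹.B₁) (t : N.N₁ ⊗[𝔹.B₁] N'.N₁) :
    tensorι₁ N N' (b • t) = 𝔹.r₁ b • tensorι₁ N N' t :=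
  tensorAddHom_smul 𝔹.r₁ N.ι₁ N'.ι₁ (map_add _) (map_add _) N.ι₁_smul N'.ι₁_smul b t

theorem tensorι₂_smul (b : 𝔹.B₂) (t : N.N₂ ⊗[𝔹.B₂] N'.N₂) :
    tensorι₂ N N' (b • t) = 𝔹.r₂ b • tensorι₂ N N' t :=
  tensorAddHom_smul 𝔹.r₂ N.ι₂ N'.ι₂ (map_add _) (map_add _) N.ι₂_smul N'.ι₂_smul b t

/-- The tensor product of two glued modules. -/
@[reducible] def tensor : GluedModule 𝔹 where
  N₁ := N.N₁ ⊗[𝔹.B₁] N'.N₁
  N₂ := N.N₂ ⊗[𝔹.B₂] N'.N₂
  N₁₂ := N.N₁₂ ⊗[𝔹.B₁₂] N'.N₁₂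
  ι₁ := tensorι₁ N N'
  ι₂ := tensorι₂ N N'
  ι₁_smul := tensorι₁_smul N N'
  ι₂_smul := tensorι₂_smul N N'
  surj₁ := fun y => tensorAddHom_surj 𝔹.f (𝔹.r₂ 𝔹.g) (ι₁ₗ N) (ι₁ₗ N') (map_add _) (map_add _)
    N.ι₁_smul N'.ι₁_smul 𝔹.fg y
  ker₁ := fun t h => tensorAddHom_ker 𝔹.f (ι₁ₗ N) (ι₁ₗ N') (map_add _) (map_add _)
    N.ι₁_smul N'.ι₁_smul t h
  surj₂ := fun y => tensorAddHom_surj 𝔹.g (𝔹.r₁ 𝔹.f) (ι₂ₗ N) (ι₂ₗ N') (map_add _) (map_add _)
    N.ι₂_smul N'.ι₂_smul (by rw [mul_comm]; exact 𝔹.fg) y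
  ker₂ := fun t h => tensorAddHom_ker 𝔹.g (ι₂ₗ N) (ι₂ₗ N') (map_add _) (map_add _)
    N.ι₂_smul N'.ι₂_smul t h

end Tensor

/-! ## The structure sheaf -/

section Unit

variable {R : Type u} [CommRing R] (𝔹 : TwoChart R)

/-- The structure sheaf `O` as a glued module. -/
@[reducible] def unit : GluedModule 𝔹 where
  N₁ := 𝔹.B₁
  N₂ := 𝔹.B₂
  N₁₂ := 𝔹.B₁₂
  ι₁ := 𝔹.r₁.toLinearMap
  ι₂ := 𝔹.r₂.toLinearMap
  ι₁_smul := fun b n => by simp
  ι₂_smul := fun b n => by simp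
  surj₁ := fun y => by
    obtain ⟨a, n, rfl⟩ := 𝔹.surj₁ y
    exact ⟨a, n, by simp [mul_comm]⟩
  ker₁ := fun n h => 𝔹.ker₁ n h
  surj₂ := fun y => by
    obtain ⟨a, n, rfl⟩ := 𝔹.surj₂ y
    exact ⟨a, n, by simp [mul_comm]⟩
  ker₂ := fun n h => 𝔹.ker₂ n h

@[simp] theorem unit_ι₁ (b : 𝔹.B₁) : (unit 𝔹).ι₁ b = 𝔹.r₁ b := rfl

@[simp] theorem unit_ι₂ (b : 𝔹.B₂) : (unit 𝔹).ι₂ b = 𝔹.r₂ b := rfl

theorem unit_isLineBundle : (unit 𝔹).IsLineBundle :=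
  ⟨inferInstanceAs (Module.Invertible 𝔹.B₁ 𝔹.B₁), inferInstanceAs (Module.Invertible 𝔹.B₂ 𝔹.B₂)⟩

end Unit

/-! ## Internal Hom and dual -/

section Hom

variable {R : Type u} [CommRing R] {𝔹 : TwoChart R} (N N' : GluedModule 𝔹)

/-- The restriction map `Hom_{B₁}(N₁, N'₁) → Hom_{B₁₂}(N₁₂, N'₁₂)`, `φ ↦ φ[1/f]`. -/
noncomputable def homι₁ : (N.N₁ →ₗ[𝔹.B₁] N'.N₁) →ₗ[R] (N.N₁₂ →ₗ[𝔹.B₁₂] N'.N₁₂) :=
  (IsLocalizedModule.mapExtendScalars (Submonoid.powers 𝔹.f) (ι₁ₗ N) (ι₁ₗ N') 𝔹.B₁₂).restrictScalars R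

/-- The restriction map `Hom_{B₂}(N₂, N'₂) → Hom_{B₁₂}(N₁₂, N'₁₂)`, `φ ↦ φ[1/g]`. -/
noncomputable def homι₂ : (N.N₂ →ₗ[𝔹.B₂] N'.N₂) →ₗ[R] (N.N₁₂ →ₗ[𝔹.B₁₂] N'.N₁₂) :=
  (IsLocalizedModule.mapExtendScalars (Submonoid.powers 𝔹.g) (ι₂ₗ N) (ι₂ₗ N') 𝔹.B₁₂).restrictScalars R

@[simp] theorem homι₁_apply (φ : N.N₁ →ₗ[𝔹.B₁] N'.N₁) (n : N.N₁) :
    homι₁ N N' φ (N.ι₁ n) = N'.ι₁ (φ n) :=
  IsLocalizedModule.map_apply (Submonoid.powers 𝔹.f) (ι₁ₗ N) (ι₁ₗ N') φ n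

@[simp] theorem homι₂_apply (φ : N.N₂ →ₗ[𝔹.B₂] N'.N₂) (n : N.N₂) :
    homι₂ N N' φ (N.ι₂ n) = N'.ι₂ (φ n) :=
  IsLocalizedModule.map_apply (Submonoid.powers 𝔹.g) (ι₂ₗ N) (ι₂ₗ N') φ n

theorem homι₁_smul (b : 𝔹.B₁) (φ : N.N₁ →ₗ[𝔹.B₁] N'.N₁) :
    homι₁ N N' (b • φ) = 𝔹.r₁ b • homι₁ N N' φ :=
  (IsLocalizedModule.mapExtendScalars (Submonoid.powers 𝔹.f) (ι₁ₗ N) (ι₁ₗ N') 𝔹.B₁₂).map_smul b φ

theorem homι₂_smul (b : 𝔹.B₂) (φ : N.N₂ →ₗ[𝔹.B₂] N'.N₂) :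
    homι₂ N N' (b • φ) = 𝔹.r₂ b • homι₂ N N' φ :=
  (IsLocalizedModule.mapExtendScalars (Submonoid.powers 𝔹.g) (ι₂ₗ N) (ι₂ₗ N') 𝔹.B₁₂).map_smul b φ

/-- Internal Hom of glued modules; the source must be finitely presented on both charts. -/
@[reducible] noncomputable def ihom (h₁ : Module.FinitePresentation 𝔹.B₁ N.N₁)
    (h₂ : Module.FinitePresentation 𝔹.B₂ N.N₂) : GluedModule 𝔹 where
  N₁ := N.N₁ →ₗ[𝔹.B₁] N'.N₁
  N₂ := N.N₂ →ₗ[𝔹.B₂] N'.N₂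
  N₁₂ := N.N₁₂ →ₗ[𝔹.B₁₂] N'.N₁₂
  ι₁ := homι₁ N N'
  ι₂ := homι₂ N N'
  ι₁_smul := homι₁_smul N N'
  ι₂_smul := homι₂_smul N N'
  surj₁ := fun y => core_surj_of_isLocalizedModule 𝔹.f (𝔹.r₂ 𝔹.g)
    (IsLocalizedModule.mapExtendScalars (Submonoid.powers 𝔹.f) (ι₁ₗ N) (ι₁ₗ N') 𝔹.B₁₂) 𝔹.fg y
  ker₁ := fun φ h => core_ker_of_isLocalizedModule 𝔹.f
    (IsLocalizedModule.mapExtendScalars (Submonoid.powers 𝔹.f) (ι₁ₗ N) (ι₁ₗ N') 𝔹.B₁₂) φ h
  surj₂ := fun y => core_surj_of_isLocalizedModule 𝔹.g (𝔹.r₁ 𝔹.f)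
    (IsLocalizedModule.mapExtendScalars (Submonoid.powers 𝔹.g) (ι₂ₗ N) (ι₂ₗ N') 𝔹.B₁₂)
    (by rw [mul_comm]; exact 𝔹.fg) y
  ker₂ := fun φ h => core_ker_of_isLocalizedModule 𝔹.g
    (IsLocalizedModule.mapExtendScalars (Submonoid.powers 𝔹.g) (ι₂ₗ N) (ι₂ₗ N') 𝔹.B₁₂) φ h

end Hom

/-! ## Line bundles: closure under tensor and dual, `N^∨ ⊗ N ≅ O` -/

section LineBundle

variable {R : Type u} [CommRing R] {𝔹 : TwoChart R} {N N' : GluedModule 𝔹}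

/-- The restriction of a line bundle to the intersection is invertible. -/
theorem isLineBundle_inv₁₂ (h : N.IsLineBundle) : Module.Invertible 𝔹.B₁₂ N.N₁₂ :=
  haveI := h.inv₁
  Module.Invertible.of_isLocalization (Submonoid.powers 𝔹.f) (ι₁ₗ N)

theorem isLineBundle_finitePresentation₁ (h : N.IsLineBundle) :
    Module.FinitePresentation 𝔹.B₁ N.N₁ :=
  haveI := h.inv₁
  Module.finitePresentation_of_projective _ _

theorem isLineBundle_finitePresentation₂ (h : N.IsLineBundle) :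
    Module.FinitePresentation 𝔹.B₂ N.N₂ :=
  haveI := h.inv₂
  Module.finitePresentation_of_projective _ _

/-- Line bundles are closed under tensor product. -/
theorem tensor_isLineBundle (h : N.IsLineBundle) (h' : N'.IsLineBundle) :
    (tensor N N').IsLineBundle :=
  haveI := h.inv₁
  haveI := h.inv₂
  haveI := h'.inv₁
  haveI := h'.inv₂
  ⟨inferInstanceAs (Module.Invertible 𝔹.B₁ (N.N₁ ⊗[𝔹.B₁] N'.N₁)),
    inferInstanceAs (Module.Invertible 𝔹.B₂ (N.N₂ ⊗[𝔹.B₂] N'.N₂))⟩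

variable (N) in
/-- The dual of a glued module that is finitely presented on both charts. -/
@[reducible] noncomputable def dual (h₁ : Module.FinitePresentation 𝔹.B₁ N.N₁)
    (h₂ : Module.FinitePresentation 𝔹.B₂ N.N₂) : GluedModule 𝔹 :=
  ihom N (unit 𝔹) h₁ h₂

variable (N) in
/-- The dual (inverse) of a line bundle. -/
@[reducible] noncomputable def lbDual (h : N.IsLineBundle) : GluedModule 𝔹 :=
  dual N (isLineBundle_finitePresentation₁ h) (isLineBundle_finitePresentation₂ h)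

/-- The dual of a line bundle is a line bundle. -/
theorem lbDual_isLineBundle (h : N.IsLineBundle) : (lbDual N h).IsLineBundle :=
  haveI := h.inv₁
  haveI := h.inv₂
  ⟨inferInstanceAs (Module.Invertible 𝔹.B₁ (Module.Dual 𝔹.B₁ N.N₁)),
    inferInstanceAs (Module.Invertible 𝔹.B₂ (Module.Dual 𝔹.B₂ N.N₂))⟩

/-- `N^∨ ⊗ N ≅ O` for a line bundle `N` (evaluation). -/
noncomputable def lbDualTensorIso (h : N.IsLineBundle) :
    GluedModule.Iso (tensor (lbDual N h) N) (unit 𝔹) :=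
  haveI := h.inv₁
  haveI := h.inv₂
  haveI := isLineBundle_inv₁₂ h
  { e₁ := Module.Invertible.linearEquiv 𝔹.B₁ N.N₁
    e₂ := Module.Invertible.linearEquiv 𝔹.B₂ N.N₂
    e₁₂ := Module.Invertible.linearEquiv 𝔹.B₁₂ N.N₁₂
    comm₁ := fun t => by
      induction t using TensorProduct.induction_on with
      | zero => simp
      | tmul φ n => exact homι₁_apply N (unit 𝔹) φ n
      | add x y hx hy => rw [map_add, map_add, hx, hy, map_add, map_add]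
    comm₂ := fun t => by
      induction t using TensorProduct.induction_on with
      | zero => simp
      | tmul φ n => exact homι₂_apply N (unit 𝔹) φ n
      | add x y hx hy => rw [map_add, map_add, hx, hy, map_add, map_add] }

end LineBundle

end Fermat.Agent.S25.ATLAS.TW.T1308
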