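/-
S25 A2 piece (helper6408): Core-only Čech lemmas for a glued module over an arbitrary two-chart.
* `H1_finite_of_span` / `H1_finite_of_adjoin` : (F) `H¹(N)` is a finitely generated `R`-module as
  soon as `N₁` is finitely generated over `R[f]`.
* `exists_retraction_H0`, `H0_projective`, `H0_finite_of_le` : the split exact sequence
  `0 → H⁰ → N₁ × N₂ → N₁₂ → 0` when `H¹ = 0` and `N₁₂` is `R`-projective (core of (CB1)).
-/
import Fermat.Agent.S25.Core

set_option autoImplicit false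

universe u

namespace Fermat.Agent.S25.ATLAS.TW.H6408

open Fermat.Agent.S25

variable {R : Type u} [CommRing R] {𝔹 : TwoChart R} (N : GluedModule 𝔹)

theorem ι₁_mem_range_d (a : N.N₁) : N.ι₁ a ∈ LinearMap.range N.d :=
  ⟨(a, 0), by simp [GluedModule.d]⟩

theorem ι₂_mem_range_d (b : N.N₂) : N.ι₂ b ∈ LinearMap.range N.d :=
  ⟨(0, -b), by simp [GluedModule.d]⟩

theorem smul_comm₁₂ (r : R) (b : 𝔹.B₁₂) (x : N.N₁₂) : r • b • x = b • r • x := by
  rw [← smul_assoc, Algebra.smul_def, mul_comm, mul_smul, algebraMap_smul]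

theorem smul_comm₁ (r : R) (b : 𝔹.B₁) (x : N.N₁) : r • b • x = b • r • x := by
  rw [← smul_assoc, Algebra.smul_def, mul_comm, mul_smul, algebraMap_smul]

theorem FG_smul (j : ℕ) (x : N.N₁₂) :
    𝔹.r₁ 𝔹.f ^ j • 𝔹.r₂ 𝔹.g ^ j • x = x := by
  rw [← mul_smul, ← mul_pow, 𝔹.fg, one_pow, one_smul]

theorem GF_smul (j : ℕ) (x : N.N₁₂) :
    𝔹.r₂ 𝔹.g ^ j • 𝔹.r₁ 𝔹.f ^ j • x = x := by
  rw [← mul_smul, ← mul_pow, mul_comm, 𝔹.fg, one_pow, one_smul]

theorem ι₁_pow_smul (j : ℕ) (a : N.N₁) : N.ι₁ (𝔹.f ^ j • a) = 𝔹.r₁ 𝔹.f ^ j • N.ι₁ a := by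
  rw [N.ι₁_smul, map_pow]

theorem ι₂_pow_smul (j : ℕ) (b : N.N₂) : N.ι₂ (𝔹.g ^ j • b) = 𝔹.r₂ 𝔹.g ^ j • N.ι₂ b := by
  rw [N.ι₂_smul, map_pow]

/-- `g^m • ι₁ (f^j • e)` is either in the image of `ι₁` or of the form `g^t • ι₁ e`, `t ≤ m`. -/
theorem G_pow_smul_ι₁_F_pow (m j : ℕ) (e : N.N₁) :
    𝔹.r₂ 𝔹.g ^ m • N.ι₁ (𝔹.f ^ j • e) =
      if m ≤ j then N.ι₁ (𝔹.f ^ (j - m) • e) else 𝔹.r₂ 𝔹.g ^ (m - j) • N.ι₁ e := by
  split_ifs with h
  · obtain ⟨t, rfl⟩ := Nat.exists_eq_add_of_le h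
    rw [Nat.add_sub_cancel_left, pow_add, mul_smul, ι₁_pow_smul, GF_smul]
  · obtain ⟨t, rfl⟩ := Nat.exists_eq_add_of_le (not_le.mp h).le
    rw [Nat.add_sub_cancel_left, pow_add, mul_comm, mul_smul, ι₁_pow_smul, GF_smul]

/-- (F), span form: if `N₁` is `R`-spanned by the `f^j • e`, `e` in a finite set, then `H¹(N)` is a
finitely generated `R`-module. -/
theorem H1_finite_of_span (s : Set N.N₁) (hs : s.Finite)
    (hspan : ∀ n : N.N₁, n ∈ Submodule.span R {x | ∃ (j : ℕ) (e : N.N₁), e ∈ s ∧ x = 𝔹.f ^ j • e}) :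
    Module.Finite R N.H1 := by
  classical
  -- each `ι₁ e` is `f^m • ι₂ n`
  choose! n₂ m₂ h₂ using fun e : N.N₁ => N.surj₂ (N.ι₁ e)
  obtain ⟨M, hM⟩ : ∃ M : ℕ, ∀ e ∈ s, m₂ e ≤ M := by
    obtain ⟨M, hM⟩ := (hs.image m₂).bddAbove
    exact ⟨M, fun e he => hM (Set.mem_image_of_mem _ he)⟩
  let q : N.N₁₂ →ₗ[R] N.H1 := (LinearMap.range N.d).mkQ
  have hq0 : ∀ y ∈ LinearMap.range N.d, q y = 0 := fun y hy => by
    simpa [q] using hy
  -- generators
  let T : Set N.H1 := (fun p : N.N₁ × ℕ => q (𝔹.r₂ 𝔹.g ^ p.2 • N.ι₁ p.1)) '' (s ×ˢ (Set.Iio M))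
  have hT : T.Finite := (hs.prod (Set.finite_Iio M)).image _
  have key : ∀ e ∈ s, ∀ t : ℕ, q (𝔹.r₂ 𝔹.g ^ t • N.ι₁ e) ∈ Submodule.span R T := by
    intro e he t
    by_cases ht : t < M
    · exact Submodule.subset_span ⟨(e, t), ⟨he, ht⟩, rfl⟩
    · have hle : m₂ e ≤ t := (hM e he).trans (not_lt.mp ht)
      obtain ⟨c, rfl⟩ := Nat.exists_eq_add_of_le hle
      have : 𝔹.r₂ 𝔹.g ^ (m₂ e + c) • N.ι₁ e = N.ι₂ (𝔹.g ^ c • n₂ e) := by
        conv_lhs => rw [h₂ e]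
        rw [add_comm, pow_add, mul_smul, GF_smul, ι₂_pow_smul]
      rw [this, hq0 _ (ι₂_mem_range_d N _)]
      exact zero_mem _
  refine ⟨⟨hT.toFinset, ?_⟩⟩
  rw [Set.Finite.coe_toFinset, eq_top_iff]
  rintro x -
  obtain ⟨y, rfl⟩ := Submodule.mkQ_surjective (LinearMap.range N.d) x
  obtain ⟨n, m, rfl⟩ := N.surj₁ y
  change q (𝔹.r₂ 𝔹.g ^ m • N.ι₁ n) ∈ Submodule.span R T
  have hn := hspan n
  induction hn using Submodule.span_induction with
  | mem x hx =>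
    obtain ⟨j, e, he, rfl⟩ := hx
    rw [G_pow_smul_ι₁_F_pow]
    split_ifs with h
    · rw [hq0 _ (ι₁_mem_range_d N _)]
      exact zero_mem _
    · exact key e he _
  | zero => simp
  | add x y _ _ hx hy =>
    rw [map_add, smul_add, map_add]
    exact add_mem hx hy
  | smul r x _ hx =>
    have e1 : 𝔹.r₂ 𝔹.g ^ m • N.ι₁ (r • x) = r • (𝔹.r₂ 𝔹.g ^ m • N.ι₁ x) := by
      rw [LinearMap.map_smul, smul_comm₁₂]
    rw [e1, LinearMap.map_smul]
    exact Submodule.smul_mem _ _ hx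

/-- (F): if `N₁` is finitely generated over `R[f]`, then `H¹(N)` is a finitely generated
`R`-module. -/
theorem H1_finite_of_adjoin
    (h : ∃ s : Finset N.N₁, ∀ n : N.N₁, ∃ c : N.N₁ → Algebra.adjoin R ({𝔹.f} : Set 𝔹.B₁),
      n = ∑ e ∈ s, (c e : 𝔹.B₁) • e) :
    Module.Finite R N.H1 := by
  classical
  obtain ⟨s, hs⟩ := h
  refine H1_finite_of_span N (s : Set N.N₁) s.finite_toSet fun n => ?_
  obtain ⟨c, rfl⟩ := hs n
  refine Submodule.sum_mem _ fun e he => ?_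
  set S : Submodule R N.N₁ :=
    Submodule.span R {x | ∃ (j : ℕ) (e : N.N₁), e ∈ (s : Set N.N₁) ∧ x = 𝔹.f ^ j • e} with hS
  have hc : ∀ b ∈ Algebra.adjoin R ({𝔹.f} : Set 𝔹.B₁), ∀ x ∈ S, b • x ∈ S := by
    intro b hb
    induction hb using Algebra.adjoin_induction with
    | mem b hb =>
      rw [Set.mem_singleton_iff] at hb
      subst hb
      intro x hx
      induction hx using Submodule.span_induction with
      | mem x hx =>
        obtain ⟨j, e, he, rfl⟩ := hx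
        exact Submodule.subset_span ⟨j + 1, e, he, by rw [pow_succ', mul_smul]⟩
      | zero => simp
      | add x y _ _ hx hy => rw [smul_add]; exact add_mem hx hy
      | smul r x _ hx => rw [← smul_comm₁]; exact Submodule.smul_mem _ _ hx
    | algebraMap r =>
      intro x hx
      rw [algebraMap_smul]
      exact Submodule.smul_mem _ _ hx
    | add x y _ _ hx hy =>
      intro z hz
      rw [add_smul]
      exact add_mem (hx z hz) (hy z hz)
    | mul x y _ _ hx hy =>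
      intro z hz
      rw [mul_smul]
      exact hx _ (hy z hz)
  exact hc _ (c e).2 e (Submodule.subset_span ⟨0, e, he, by rw [pow_zero, one_smul]⟩)

end Fermat.Agent.S25.ATLAS.TW.H6408

namespace Fermat.Agent.S25.ATLAS.TW.H6408

open Fermat.Agent.S25

variable {R : Type u} [CommRing R] {𝔹 : TwoChart R} (N : GluedModule 𝔹)

/-- `H¹(N) = 0` iff the Čech differential is surjective. -/
theorem H1_subsingleton_iff : Subsingleton N.H1 ↔ Function.Surjective N.d := by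
  rw [Submodule.Quotient.subsingleton_iff, LinearMap.range_eq_top]

/-- The `R`-linear endomorphism `1 - σ ∘ d` of `N₁ × N₂` attached to a section `σ` of `d`. -/
noncomputable def retr (σ : N.N₁₂ →ₗ[R] (N.N₁ × N.N₂)) : (N.N₁ × N.N₂) →ₗ[R] (N.N₁ × N.N₂) :=
  LinearMap.id - σ.comp N.d

theorem retr_apply (σ : N.N₁₂ →ₗ[R] (N.N₁ × N.N₂)) (x : N.N₁ × N.N₂) :
    retr N σ x = x - σ (N.d x) := rfl

theorem retr_mem (σ : N.N₁₂ →ₗ[R] (N.N₁ × N.N₂)) (hσ : ∀ y, N.d (σ y) = y) (x : N.N₁ × N.N₂) :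
    retr N σ x ∈ N.H0 := by
  change N.d (retr N σ x) = 0
  rw [retr_apply, map_sub, hσ, sub_self]

/-- Core of (CB1): if `H¹(N) = 0` and `N₁₂` is `R`-projective, the inclusion `H⁰ → N₁ × N₂` has an
`R`-linear retraction. -/
theorem exists_retraction_H0 [Module.Projective R N.N₁₂] (h : Function.Surjective N.d) :
    ∃ π : (N.N₁ × N.N₂) →ₗ[R] N.H0, ∀ x : N.H0, π (x : N.N₁ × N.N₂) = x := by
  obtain ⟨σ, hσ⟩ := Module.projective_lifting_property N.d LinearMap.id h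
  have hσ' : ∀ y, N.d (σ y) = y := fun y => by
    simpa using LinearMap.congr_fun hσ y
  refine ⟨(retr N σ).codRestrict N.H0 (retr_mem N σ hσ'), fun x => ?_⟩
  apply Subtype.ext
  have hx : N.d (x : N.N₁ × N.N₂) = 0 := x.2
  simp [retr_apply, hx]

/-- Core of (CB1): `H⁰` is `R`-projective when `H¹ = 0` and `N₁`, `N₂`, `N₁₂` are `R`-projective. -/
theorem H0_projective [Module.Projective R N.N₁] [Module.Projective R N.N₂]
    [Module.Projective R N.N₁₂] (h : Function.Surjective N.d) : Module.Projective R N.H0 := by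
  obtain ⟨π, hπ⟩ := exists_retraction_H0 N h
  exact Module.Projective.of_split N.H0.subtype π (LinearMap.ext fun x => hπ x)

/-- Core of (CB1): if moreover `H⁰` is contained in a finitely generated `R`-submodule, then `H⁰`
is finitely generated. -/
theorem H0_finite_of_le [Module.Projective R N.N₁₂] (h : Function.Surjective N.d)
    (P : Submodule R (N.N₁ × N.N₂)) (hP : P.FG) (hle : N.H0 ≤ P) : Module.Finite R N.H0 := by
  obtain ⟨π, hπ⟩ := exists_retraction_H0 N h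
  have hsurj : Function.Surjective (π.comp P.subtype) := fun x =>
    ⟨⟨x, hle x.2⟩, hπ x⟩
  have : Module.Finite R P := Module.Finite.iff_fg.mpr hP
  exact Module.Finite.of_surjective _ hsurj

/-- The short exact sequence `0 → H⁰ → N₁ × N₂ → N₁₂ → 0` is split when `H¹ = 0` and `N₁₂` is
projective: `N₁ × N₂ ≃ H⁰ × N₁₂`. -/
theorem exists_splitting [Module.Projective R N.N₁₂] (h : Function.Surjective N.d) :
    ∃ e : (N.N₁ × N.N₂) ≃ₗ[R] (N.H0 × N.N₁₂),
      (∀ x, (e x).2 = N.d x) ∧ ∀ x : N.H0, e (x : N.N₁ × N.N₂) = (x, 0) := by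
  obtain ⟨σ, hσ⟩ := Module.projective_lifting_property N.d LinearMap.id h
  have hσ' : ∀ y, N.d (σ y) = y := fun y => by
    simpa using LinearMap.congr_fun hσ y
  let π : (N.N₁ × N.N₂) →ₗ[R] N.H0 := (retr N σ).codRestrict N.H0 (retr_mem N σ hσ')
  have hπ : ∀ x, ((π x : N.H0) : N.N₁ × N.N₂) = x - σ (N.d x) := fun x => rfl
  refine ⟨LinearEquiv.ofLinearMap (π.prod N.d)
    (N.H0.subtype.coprod σ) ?_ ?_, fun x => rfl, fun x => ?_⟩
  · apply LinearMap.ext
    rintro ⟨x, y⟩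
    have hx : N.d (x : N.N₁ × N.N₂) = 0 := x.2
    apply Prod.ext
    · apply Subtype.ext
      simp [hπ, hx, hσ']
    · simp [hx, hσ']
  · apply LinearMap.ext
    intro x
    simp [hπ]
  · have hx : N.d (x : N.N₁ × N.N₂) = 0 := x.2
    apply Prod.ext
    · apply Subtype.ext
      simp [hπ, hx]
    · simpa using hx

end Fermat.Agent.S25.ATLAS.TW.H6408
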