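/-
S25 package A3, piece VANISH (helper2750).

Built on `S25/Core.lean` (helper5425) and `S25/A1/Basic.lean` (helper7630: `Hom`, `unit`, `twist`).

For a glued module `N` over a two-chart `𝔹` (any base ring `R`):
* `range_twist_d_mono` : the images of the Čech differentials of the twists `N⟨n⟩` increase with `n`;
* `exists_mem_range_twist_d` : every element of `N₁₂` is a coboundary of some `N⟨n⟩`, `n ≥ 0`;
* `exists_twist_H1_subsingleton` : if `H¹(N)` is a finitely generated `R`-module, then there is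
  `n₁ : ℕ` with `H¹(N⟨n⟩) = 0` for all `n ≥ n₁`
  (route 2.2: "fix `n₁` with `H¹(O⟨n₁⟩) = 0`").
-/
import Fermat.Agent.S25.A1.Basic

set_option autoImplicit false

universe u

namespace Fermat.Agent.S25.ATLAS.TW.H2750

open Fermat.Agent.S25

variable {R : Type u} [CommRing R] {𝔹 : TwoChart R} (N : GluedModule 𝔹)

/-- The Čech differential of the twist `N⟨n⟩`. -/
theorem twist_d_apply (n : ℤ) (x : N.N₁ × N.N₂) :
    (N.twist n).d x = N.ι₁ x.1 - ((𝔹.u ^ n : 𝔹.B₁₂ˣ) : 𝔹.B₁₂) • N.ι₂ x.2 := by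
  rw [GluedModule.d_apply]; rfl

/-- The submodule of Čech coboundaries of `N⟨n⟩`, as a submodule of `N₁₂`. -/
def bdry (n : ℤ) : Submodule R N.N₁₂ := LinearMap.range (N.twist n).d

theorem mem_bdry_iff (n : ℤ) (y : N.N₁₂) :
    y ∈ bdry N n ↔ ∃ (a : N.N₁) (b : N.N₂),
      y = N.ι₁ a - ((𝔹.u ^ n : 𝔹.B₁₂ˣ) : 𝔹.B₁₂) • N.ι₂ b := by
  constructor
  · rintro ⟨x, rfl⟩
    exact ⟨x.1, x.2, twist_d_apply N n x⟩
  · rintro ⟨a, b, rfl⟩
    exact ⟨(a, b), twist_d_apply N n (a, b)⟩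

theorem bdry_zero : bdry N 0 = LinearMap.range N.d := by
  ext y
  rw [mem_bdry_iff]
  constructor
  · rintro ⟨a, b, rfl⟩
    refine ⟨(a, b), ?_⟩
    rw [GluedModule.d_apply, zpow_zero, Units.val_one, one_smul]
  · rintro ⟨x, rfl⟩
    refine ⟨x.1, x.2, ?_⟩
    rw [GluedModule.d_apply, zpow_zero, Units.val_one, one_smul]

theorem u_zpow_succ_mul (n : ℤ) :
    ((𝔹.u ^ (n + 1) : 𝔹.B₁₂ˣ) : 𝔹.B₁₂) * 𝔹.r₂ 𝔹.g = ((𝔹.u ^ n : 𝔹.B₁₂ˣ) : 𝔹.B₁₂) := by
  have h : ((𝔹.u : 𝔹.B₁₂ˣ) : 𝔹.B₁₂) * 𝔹.r₂ 𝔹.g = 1 := 𝔹.fg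
  rw [zpow_add_one, Units.val_mul, mul_assoc, h, mul_one]

theorem bdry_le_succ (n : ℤ) : bdry N n ≤ bdry N (n + 1) := by
  intro y hy
  rw [mem_bdry_iff] at hy ⊢
  obtain ⟨a, b, rfl⟩ := hy
  refine ⟨a, 𝔹.g • b, ?_⟩
  rw [N.ι₂_smul, ← mul_smul, u_zpow_succ_mul]

/-- The coboundaries of the twists increase with the twist. -/
theorem bdry_mono {m n : ℤ} (h : m ≤ n) : bdry N m ≤ bdry N n := by
  obtain ⟨k, rfl⟩ := Int.le.dest h
  induction k with
  | zero => simp
  | succ k ih =>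
    refine (ih (by omega)).trans ?_
    have := bdry_le_succ N (m + (k : ℤ))
    simpa [add_assoc] using this

/-- Every element of `N₁₂` is a coboundary of a sufficiently positive twist. -/
theorem exists_mem_bdry (y : N.N₁₂) : ∃ n : ℕ, y ∈ bdry N (n : ℤ) := by
  obtain ⟨b, m, rfl⟩ := N.surj₂ y
  refine ⟨m, ?_⟩
  rw [mem_bdry_iff]
  refine ⟨0, -b, ?_⟩
  rw [map_zero, map_neg, smul_neg, zero_sub, neg_neg, zpow_natCast, Units.val_pow_eq_pow_val]
  rfl

/-- `H¹(N⟨n⟩) = 0` iff every element of `N₁₂` is a coboundary of `N⟨n⟩`. -/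
theorem twist_H1_subsingleton_iff (n : ℤ) :
    Subsingleton (N.twist n).H1 ↔ bdry N n = ⊤ :=
  Submodule.Quotient.subsingleton_iff

/-- Vanishing of `H¹` is inherited by higher twists. -/
theorem twist_H1_subsingleton_of_le {m n : ℤ} (h : m ≤ n) (hm : Subsingleton (N.twist m).H1) :
    Subsingleton (N.twist n).H1 := by
  rw [twist_H1_subsingleton_iff] at hm ⊢
  exact top_le_iff.mp (hm ▸ bdry_mono N h)

/-- If finitely many elements generate `N₁₂` modulo the coboundaries of `N`, then `H¹` of all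
sufficiently positive twists vanishes. -/
theorem exists_bdry_eq_top_of_span (S : Finset N.N₁₂)
    (hS : Submodule.span R (S : Set N.N₁₂) ⊔ LinearMap.range N.d = ⊤) :
    ∃ n₁ : ℕ, ∀ n : ℤ, (n₁ : ℤ) ≤ n → bdry N n = ⊤ := by
  classical
  choose e he using exists_mem_bdry N
  refine ⟨S.sup e, fun n hn => ?_⟩
  rw [← top_le_iff, ← hS]
  refine sup_le (Submodule.span_le.mpr fun y hy => ?_) ?_
  · have h1 : e y ≤ S.sup e := Finset.le_sup hy
    exact bdry_mono N (le_trans (by exact_mod_cast h1) hn) (he y)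
  · rw [← bdry_zero]
    exact bdry_mono N (le_trans (by positivity) hn)

/-- **Vanishing for large twists.**  If `H¹(N)` is a finitely generated `R`-module, then there is
`n₁` such that `H¹(N⟨n⟩) = 0` for all `n ≥ n₁`. -/
theorem exists_twist_H1_subsingleton [Module.Finite R N.H1] :
    ∃ n₁ : ℕ, ∀ n : ℤ, (n₁ : ℤ) ≤ n → Subsingleton (N.twist n).H1 := by
  classical
  obtain ⟨T, hT⟩ := (Module.Finite.fg_top : (⊤ : Submodule R N.H1).FG)
  -- lift the generators to `N₁₂`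
  have hsurj : Function.Surjective (LinearMap.range N.d).mkQ := Submodule.mkQ_surjective _
  choose l hl using hsurj
  obtain ⟨n₁, hn₁⟩ := exists_bdry_eq_top_of_span N (T.image l) (by
    rw [eq_top_iff]
    intro y _
    have hy : (LinearMap.range N.d).mkQ y ∈ Submodule.span R (T : Set N.H1) := by
      rw [hT]; trivial
    have himg : Submodule.span R (T : Set N.H1) =
        (Submodule.span R ((T.image l : Finset N.N₁₂) : Set N.N₁₂)).map (LinearMap.range N.d).mkQ := by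
      rw [Submodule.map_span, Finset.coe_image, ← Set.image_comp]
      congr 1
      ext t
      simp [hl]
    rw [himg] at hy
    obtain ⟨z, hz, hzy⟩ := hy
    have : y - z ∈ LinearMap.range N.d := by
      rw [← Submodule.Quotient.mk_eq_zero, Submodule.Quotient.mk_sub, sub_eq_zero]
      exact hzy.symm
    have hyz : y = z + (y - z) := by abel
    rw [hyz]
    exact Submodule.add_mem_sup hz this)
  exact ⟨n₁, fun n hn => (twist_H1_subsingleton_iff N n).mpr (hn₁ n hn)⟩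

end Fermat.Agent.S25.ATLAS.TW.H2750
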