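/-
S25 package A3, pieces SECHOM + RIEMANN (helper2750).

Built on `S25/Core.lean` (helper5425) and `S25/A1/Basic.lean` (helper7630: `Hom`, `unit`, `twist`)
and `H2750/Vanish.lean`.

* `homOfSection N n s` : a global section `s` of `N⟨-n⟩` gives a morphism `O⟨n⟩ → N`
  (`x ↦ x • s` on the charts);
* `exists_eq_ι₁_add_of_isArtinian` : if `φ : N' → N` has an artinian cokernel on chart 1
  (e.g. finite-dimensional over a base field), then `N₁₂ = ι₁ N₁ + φ₁₂ N'₁₂`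
  (a torsion module with artinian charts has surjective restriction maps);
* `Hom.H1_surjective_of_isArtinian` : such a `φ` is surjective on `H¹`;
* `H1_subsingleton_of_section` : **Riemann vanishing**: `H¹(O⟨n⟩) = 0`, a section `s` of `N⟨-n⟩`
  with `N₁ / B₁ s₁` artinian  ⟹  `H¹(N) = 0`;
* `riemann_vanishing` : the version over a base field `κ` with the hypotheses in the form
  delivered by the other A3 pieces (`ι₂` injective, `N₁ / B₁ a` finite-dimensional for `a ≠ 0`,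
  `dim H⁰(N⟨-n⟩) ≥ 1`).
-/
import Fermat.Agent.S25.ATLAS.TW.Dep.Vanish2750

set_option autoImplicit false

universe u

namespace Fermat.Agent.S25.ATLAS.TW.H2750

open Fermat.Agent.S25

section general

variable {R : Type u} [CommRing R] {𝔹 : TwoChart R}

/-- The gluing relation satisfied by a global section of `N⟨-n⟩`. -/
theorem section_twist_neg (N : GluedModule 𝔹) (n : ℤ) (s : (N.twist (-n)).H0) :
    ((𝔹.u ^ n : 𝔹.B₁₂ˣ) : 𝔹.B₁₂) • N.ι₁ (s : N.N₁ × N.N₂).1 = N.ι₂ (s : N.N₁ × N.N₂).2 := by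
  have hs : N.ι₁ (s : N.N₁ × N.N₂).1 =
      ((𝔹.u ^ (-n) : 𝔹.B₁₂ˣ) : 𝔹.B₁₂) • N.ι₂ (s : N.N₁ × N.N₂).2 :=
    ((N.twist (-n)).mem_H0 _).mp s.2
  rw [hs, ← mul_smul, ← Units.val_mul, ← zpow_add, add_neg_cancel, zpow_zero, Units.val_one,
    one_smul]

/-- A global section of `N⟨-n⟩` gives a morphism `O⟨n⟩ → N`. -/
def homOfSection (N : GluedModule 𝔹) (n : ℤ) (s : (N.twist (-n)).H0) :
    GluedModule.Hom ((GluedModule.unit 𝔹).twist n) N where
  φ₁ := LinearMap.toSpanSingleton 𝔹.B₁ N.N₁ (s : N.N₁ × N.N₂).1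
  φ₂ := LinearMap.toSpanSingleton 𝔹.B₂ N.N₂ (s : N.N₁ × N.N₂).2
  φ₁₂ := LinearMap.toSpanSingleton 𝔹.B₁₂ N.N₁₂ (N.ι₁ (s : N.N₁ × N.N₂).1)
  comm₁ x := by
    change 𝔹.r₁ x • N.ι₁ (s : N.N₁ × N.N₂).1 = N.ι₁ (x • (s : N.N₁ × N.N₂).1)
    rw [N.ι₁_smul]
  comm₂ y := by
    change (((𝔹.u ^ n : 𝔹.B₁₂ˣ) : 𝔹.B₁₂) * 𝔹.r₂ y) • N.ι₁ (s : N.N₁ × N.N₂).1 =
      N.ι₂ (y • (s : N.N₁ × N.N₂).2)
    rw [N.ι₂_smul, ← section_twist_neg N n s, ← mul_smul, mul_comm]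

@[simp] theorem homOfSection_φ₁_apply (N : GluedModule 𝔹) (n : ℤ) (s : (N.twist (-n)).H0)
    (x : 𝔹.B₁) : (homOfSection N n s).φ₁ x = x • (s : N.N₁ × N.N₂).1 := rfl

@[simp] theorem homOfSection_φ₂_apply (N : GluedModule 𝔹) (n : ℤ) (s : (N.twist (-n)).H0)
    (y : 𝔹.B₂) : (homOfSection N n s).φ₂ y = y • (s : N.N₁ × N.N₂).2 := rfl

@[simp] theorem homOfSection_φ₁₂_apply (N : GluedModule 𝔹) (n : ℤ) (s : (N.twist (-n)).H0)
    (z : 𝔹.B₁₂) : (homOfSection N n s).φ₁₂ z = z • N.ι₁ (s : N.N₁ × N.N₂).1 := rfl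

theorem range_homOfSection_φ₁ (N : GluedModule 𝔹) (n : ℤ) (s : (N.twist (-n)).H0) :
    LinearMap.range (homOfSection N n s).φ₁ = Submodule.span 𝔹.B₁ {(s : N.N₁ × N.N₂).1} := by
  ext y
  rw [Submodule.mem_span_singleton]
  rfl

variable {N N' : GluedModule 𝔹}

/-- In an artinian module, `f ^ m • t` is divisible by `f ^ (m + j)` for suitable `m`. -/
theorem exists_pow_smul_eq_pow_add_smul {B T : Type*} [CommRing B] [AddCommGroup T] [Module B T]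
    [IsArtinian B T] (f : B) (j : ℕ) (t : T) :
    ∃ (m : ℕ) (t' : T), f ^ m • t = f ^ (m + j) • t' := by
  induction j with
  | zero => exact ⟨0, t, rfl⟩
  | succ j ih =>
    obtain ⟨m, t', h⟩ := ih
    obtain ⟨n, t'', h'⟩ := IsArtinian.exists_pow_succ_smul_dvd f t'
    refine ⟨m + n, t'', ?_⟩
    calc f ^ (m + n) • t = f ^ n • f ^ m • t := by rw [← mul_smul, ← pow_add, add_comm]
      _ = f ^ (m + j) • f ^ n • t' := by rw [h, smul_comm]
      _ = f ^ (m + j) • f ^ (n + 1) • t'' := by rw [h']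
      _ = f ^ (m + n + (j + 1)) • t'' := by
        rw [← mul_smul, ← pow_add]; congr 2; omega

/-- If the chart-1 cokernel of `φ : N' → N` is artinian, then `N₁₂ = ι₁ N₁ + φ₁₂ N'₁₂`. -/
theorem exists_eq_ι₁_add_of_isArtinian (φ : GluedModule.Hom N' N)
    [IsArtinian 𝔹.B₁ (N.N₁ ⧸ LinearMap.range φ.φ₁)] (y : N.N₁₂) :
    ∃ (a : N.N₁) (z : N'.N₁₂), y = N.ι₁ a + φ.φ₁₂ z := by
  obtain ⟨a, j, rfl⟩ := N.surj₁ y
  obtain ⟨m, t', h⟩ := exists_pow_smul_eq_pow_add_smul (T := N.N₁ ⧸ LinearMap.range φ.φ₁) 𝔹.f j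
    (Submodule.Quotient.mk a)
  obtain ⟨a', rfl⟩ := Submodule.Quotient.mk_surjective _ t'
  rw [← Submodule.Quotient.mk_smul, ← Submodule.Quotient.mk_smul, Submodule.Quotient.eq] at h
  obtain ⟨c, hc⟩ := h
  -- `f ^ m • a = f ^ (m + j) • a' + φ₁ c`
  have h1 : 𝔹.f ^ m • a = 𝔹.f ^ (m + j) • a' + φ.φ₁ c := by rw [hc]; abel
  have h2 : 𝔹.r₁ 𝔹.f ^ m • N.ι₁ a = 𝔹.r₁ 𝔹.f ^ (m + j) • N.ι₁ a' + φ.φ₁₂ (N'.ι₁ c) := by
    rw [← map_pow, ← map_pow, ← N.ι₁_smul, ← N.ι₁_smul, h1, map_add, φ.comm₁]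
  have hgf : 𝔹.r₂ 𝔹.g * 𝔹.r₁ 𝔹.f = 1 := 𝔹.gf
  have hgfk : ∀ k : ℕ, 𝔹.r₂ 𝔹.g ^ k * 𝔹.r₁ 𝔹.f ^ k = 1 := fun k => by
    rw [← mul_pow, hgf, one_pow]
  refine ⟨a', 𝔹.r₂ 𝔹.g ^ (m + j) • N'.ι₁ c, ?_⟩
  have h3 := congrArg (fun w => 𝔹.r₂ 𝔹.g ^ (m + j) • w) h2
  simp only [smul_add, ← mul_smul] at h3
  rw [hgfk, one_smul] at h3
  rw [map_smul, ← h3]
  congr 1
  rw [pow_add, mul_comm (𝔹.r₂ 𝔹.g ^ m), mul_assoc, hgfk, mul_one]

/-- A morphism with artinian chart-1 cokernel is surjective on `H¹`. -/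
theorem H1_surjective_of_isArtinian (φ : GluedModule.Hom N' N)
    [IsArtinian 𝔹.B₁ (N.N₁ ⧸ LinearMap.range φ.φ₁)] : Function.Surjective φ.H1 := by
  intro w
  obtain ⟨y, rfl⟩ := Submodule.Quotient.mk_surjective _ w
  obtain ⟨a, z, rfl⟩ := exists_eq_ι₁_add_of_isArtinian φ y
  refine ⟨Submodule.Quotient.mk z, ?_⟩
  change Submodule.Quotient.mk (φ.φ₁₂ z) = Submodule.Quotient.mk (N.ι₁ a + φ.φ₁₂ z)
  rw [eq_comm, Submodule.Quotient.eq]
  refine ⟨(a, 0), ?_⟩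
  rw [GluedModule.d_apply]
  simp

/-- Vanishing of `H¹` passes along a morphism with artinian chart-1 cokernel. -/
theorem H1_subsingleton_of_hom (φ : GluedModule.Hom N' N)
    [IsArtinian 𝔹.B₁ (N.N₁ ⧸ LinearMap.range φ.φ₁)] (h : Subsingleton N'.H1) :
    Subsingleton N.H1 :=
  (H1_surjective_of_isArtinian φ).subsingleton

/-- **Riemann vanishing** (general base): if `H¹(O⟨n⟩) = 0` and `N⟨-n⟩` has a global section `s`
whose chart-1 component has an artinian cokernel `N₁ / B₁ s₁`, then `H¹(N) = 0`. -/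
theorem H1_subsingleton_of_section (N : GluedModule 𝔹) (n : ℤ)
    (h : Subsingleton ((GluedModule.unit 𝔹).twist n).H1) (s : (N.twist (-n)).H0)
    (hs : IsArtinian 𝔹.B₁ (N.N₁ ⧸ Submodule.span 𝔹.B₁ {(s : N.N₁ × N.N₂).1})) :
    Subsingleton N.H1 := by
  rw [← range_homOfSection_φ₁ N n s] at hs
  exact H1_subsingleton_of_hom (homOfSection N n s) h

end general

section field

variable {κ : Type u} [Field κ] {𝔹 : TwoChart κ}

/-- A quotient of a chart module that is finite-dimensional over the base field is artinian. -/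
theorem isArtinian_quotient_of_finite (N : GluedModule 𝔹) (P : Submodule 𝔹.B₁ N.N₁)
    [Module.Finite κ (N.N₁ ⧸ P)] : IsArtinian 𝔹.B₁ (N.N₁ ⧸ P) :=
  isArtinian_of_tower κ (inferInstance : IsArtinian κ (N.N₁ ⧸ P))

/-- If `ι₂` is injective, a nonzero section of `N⟨m⟩` has a nonzero chart-1 component. -/
theorem section_fst_ne_zero (N : GluedModule 𝔹) (hι₂ : Function.Injective N.ι₂) (m : ℤ)
    (s : (N.twist m).H0) (hs : s ≠ 0) : (s : N.N₁ × N.N₂).1 ≠ 0 := by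
  intro h1
  apply hs
  have hs' : N.ι₁ (s : N.N₁ × N.N₂).1 =
      ((𝔹.u ^ m : 𝔹.B₁₂ˣ) : 𝔹.B₁₂) • N.ι₂ (s : N.N₁ × N.N₂).2 :=
    ((N.twist m).mem_H0 _).mp s.2
  rw [h1, map_zero] at hs'
  have h2 : N.ι₂ (s : N.N₁ × N.N₂).2 = 0 := by
    have := congrArg (fun w => ((𝔹.u ^ (-m) : 𝔹.B₁₂ˣ) : 𝔹.B₁₂) • w) hs'
    simp only [smul_zero, ← mul_smul, ← Units.val_mul, ← zpow_add] at this
    rw [neg_add_cancel, zpow_zero, Units.val_one, one_smul] at this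
    exact this.symm
  have h3 : (s : N.N₁ × N.N₂).2 = 0 := hι₂ (by rw [h2, map_zero])
  apply Subtype.ext
  exact Prod.ext h1 h3

/-- **Riemann vanishing** over a base field `κ`: if `H¹(O⟨n⟩) = 0`, `N⟨-n⟩` has a nonzero global
section, `ι₂` is injective and `N₁ / B₁ a` is finite-dimensional for every `a ≠ 0`
(both hold for line bundles on a curve), then `H¹(N) = 0`. -/
theorem riemann_vanishing (N : GluedModule 𝔹) (n : ℤ)
    (h : Subsingleton ((GluedModule.unit 𝔹).twist n).H1)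
    (hι₂ : Function.Injective N.ι₂)
    (hfin : ∀ a : N.N₁, a ≠ 0 → Module.Finite κ (N.N₁ ⧸ Submodule.span 𝔹.B₁ {a}))
    (hsec : ∃ s : (N.twist (-n)).H0, s ≠ 0) : Subsingleton N.H1 := by
  obtain ⟨s, hs⟩ := hsec
  have := hfin _ (section_fst_ne_zero N hι₂ (-n) s hs)
  exact H1_subsingleton_of_section N n h s (isArtinian_quotient_of_finite N _)

/-- Numerical form: `dim H⁰(N⟨-n⟩) ≥ 1` gives the nonzero section. -/
theorem riemann_vanishing_of_finrank_pos (N : GluedModule 𝔹) (n : ℤ)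
    (h : Subsingleton ((GluedModule.unit 𝔹).twist n).H1)
    (hι₂ : Function.Injective N.ι₂)
    (hfin : ∀ a : N.N₁, a ≠ 0 → Module.Finite κ (N.N₁ ⧸ Submodule.span 𝔹.B₁ {a}))
    (hpos : 0 < Module.finrank κ (N.twist (-n)).H0) : Subsingleton N.H1 := by
  refine riemann_vanishing N n h hι₂ hfin ?_
  by_contra hne
  push Not at hne
  have : Subsingleton (N.twist (-n)).H0 := ⟨fun a b => by rw [hne a, hne b]⟩
  rw [Module.finrank_zero_of_subsingleton] at hpos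
  exact lt_irrefl _ hpos

end field

end Fermat.Agent.S25.ATLAS.TW.H2750
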