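/-
S25 / A3 piece DEDLEN (helper190).  Mathlib-only commutative algebra used for degrees of line
bundles on a curve presented by affine charts that are one-dimensional domains of finite type
over a field.
-/
import Mathlib

set_option autoImplicit false

namespace Fermat.Agent.S25.ATLAS.TW.H190

open Module

section Quot

variable (κ : Type*) [Field κ] {B : Type*} [CommRing B] [Algebra κ B]
  [Algebra.FiniteType κ B] [Ring.DimensionLEOne B]

/-- A nonzero ideal of a one-dimensional domain of finite type over a field has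
finite-dimensional quotient. -/
theorem finite_quotient_of_ne_bot {I : Ideal B} (hI : I ≠ ⊥) : Module.Finite κ (B ⧸ I) := by
  rw [Module.finite_iff_krullDimLE_zero]
  rw [Ring.krullDimLE_zero_iff]
  intro J hJ
  have hc : (J.comap (Ideal.Quotient.mk I)).IsPrime := Ideal.comap_isPrime _ _
  have hne : J.comap (Ideal.Quotient.mk I) ≠ ⊥ := by
    intro h
    apply hI
    rw [eq_bot_iff]
    intro x hx
    have : x ∈ J.comap (Ideal.Quotient.mk I) := by
      rw [Ideal.mem_comap, Ideal.Quotient.eq_zero_iff_mem.mpr hx]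
      exact J.zero_mem
    rw [h] at this
    exact this
  have hmax : (J.comap (Ideal.Quotient.mk I)).IsMaximal := hc.isMaximal hne
  have := Ideal.map_comap_of_surjective (Ideal.Quotient.mk I) Ideal.Quotient.mk_surjective J
  rw [← this]
  exact (Ideal.map_eq_top_or_isMaximal_of_surjective (Ideal.Quotient.mk I)
    Ideal.Quotient.mk_surjective hmax).resolve_left (by rw [this]; exact hJ.ne_top)

/-- A module over `B` killed by a nonzero ideal and finitely generated is finite-dimensional. -/
theorem finite_of_annihilator_ne_bot (T : Type*) [AddCommGroup T] [Module B T] [Module κ T]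
    [IsScalarTower κ B T] [Module.Finite B T] (h : Module.annihilator B T ≠ ⊥) :
    Module.Finite κ T := by
  have h1 : Module.Finite κ (B ⧸ Module.annihilator B T) := finite_quotient_of_ne_bot κ h
  let _ : Module (B ⧸ Module.annihilator B T) T := Module.quotientAnnihilator
  have hsm : ∀ (b : B) (t : T), (Ideal.Quotient.mk (Module.annihilator B T) b) • t = b • t :=
    fun b t => rfl
  have : IsScalarTower B (B ⧸ Module.annihilator B T) T := by
    constructor
    intro b q t
    obtain ⟨c, rfl⟩ := Ideal.Quotient.mk_surjective q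
    change (Ideal.Quotient.mk _ (b * c)) • t = b • (Ideal.Quotient.mk _ c) • t
    rw [hsm, hsm, mul_smul]
  have : Module.Finite (B ⧸ Module.annihilator B T) T :=
    Module.Finite.of_restrictScalars_finite B _ _
  have : IsScalarTower κ (B ⧸ Module.annihilator B T) T := by
    constructor
    intro c q t
    obtain ⟨b, rfl⟩ := Ideal.Quotient.mk_surjective q
    change (Ideal.Quotient.mk _ (c • b)) • t = c • (Ideal.Quotient.mk _ b) • t
    rw [hsm, hsm, smul_assoc]
  exact Module.Finite.trans (B ⧸ Module.annihilator B T) T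

/-- A finitely generated torsion module over a one-dimensional domain of finite type over a
field is finite-dimensional. -/
theorem finite_of_torsion [IsDomain B] (T : Type*) [AddCommGroup T] [Module B T] [Module κ T]
    [IsScalarTower κ B T] [Module.Finite B T] (hT : ∀ t : T, ∃ b : B, b ≠ 0 ∧ b • t = 0) :
    Module.Finite κ T := by
  classical
  apply finite_of_annihilator_ne_bot κ (B := B) T
  obtain ⟨S, hS⟩ := (Module.finite_def.mp (inferInstance : Module.Finite B T))
  choose b hb0 hb using hT
  have hmem : (∏ t ∈ S, b t) ∈ Module.annihilator B T := by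
    rw [Module.mem_annihilator]
    intro x
    have hx : x ∈ Submodule.span B (S : Set T) := by rw [hS]; trivial
    induction hx using Submodule.span_induction with
    | mem t ht =>
      rw [← Finset.prod_erase_mul S b ht, mul_smul, hb, smul_zero]
    | zero => rw [smul_zero]
    | add x y _ _ hx hy => rw [smul_add, hx, hy, add_zero]
    | smul c x _ hx => rw [smul_comm, hx, smul_zero]
  intro h
  rw [h] at hmem
  exact (Finset.prod_ne_zero_iff.mpr fun t _ => hb0 t) hmem

end Quot

section Invertible

variable {B : Type*} [CommRing B] [IsDomain B] {N : Type*} [AddCommGroup N] [Module B N]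
  [Module.Invertible B N]

/-- Any element of an invertible module over a domain is proportional to a given nonzero
element: the quotient by a nonzero section is torsion. -/
theorem exists_smul_mem_span_singleton {s : N} (hs : s ≠ 0) (n : N) :
    ∃ b : B, b ≠ 0 ∧ b • n ∈ Submodule.span B {s} := by
  have h1 : Module.finrank (FractionRing B) (LocalizedModule (nonZeroDivisors B) N) = 1 :=
    Module.Invertible.finrank_eq_one (FractionRing B) (LocalizedModule (nonZeroDivisors B) N)
  have hv : (LocalizedModule.mk s 1 : LocalizedModule (nonZeroDivisors B) N) ≠ 0 := by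
    intro h
    rw [← LocalizedModule.zero_mk (1 : nonZeroDivisors B), LocalizedModule.mk_eq] at h
    obtain ⟨u, hu⟩ := h
    simp only [one_smul, smul_zero] at hu
    have hu0 : (u : B) ≠ 0 := nonZeroDivisors.coe_ne_zero u
    exact hs ((smul_eq_zero.mp hu).resolve_left hu0)
  obtain ⟨c, hc⟩ := (finrank_eq_one_iff_of_nonzero' _ hv).mp h1 (LocalizedModule.mk n 1)
  induction c using Localization.induction_on with
  | H y =>
    obtain ⟨a, b⟩ := y
    rw [LocalizedModule.mk_smul_mk, LocalizedModule.mk_eq] at hc
    obtain ⟨u, hu⟩ := hc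
    simp only [one_smul, mul_one] at hu
    refine ⟨(u : B) * (b : B), mul_ne_zero (nonZeroDivisors.coe_ne_zero u)
      (nonZeroDivisors.coe_ne_zero b), ?_⟩
    have : ((u : B) * (b : B)) • n = ((u : B) * a) • s := by
      rw [mul_smul, mul_smul]
      exact hu.symm
    rw [this]
    exact Submodule.smul_mem _ _ (Submodule.mem_span_singleton_self s)

end Invertible

section QuotInvertible

variable {B : Type*} [CommRing B] {N : Type*} [AddCommGroup N] [Module B N]
  [Module.Invertible B N]

open TensorProduct in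
/-- Modulo an ideal with semilocal quotient (for instance a nonzero ideal of a Dedekind domain),
an invertible module becomes free of rank one. -/
theorem nonempty_quotient_smul_top_equiv (I : Ideal B) [Finite (MaximalSpectrum (B ⧸ I))] :
    Nonempty ((N ⧸ (I • ⊤ : Submodule B N)) ≃ₗ[B] (B ⧸ I)) := by
  have hfree : Module.Free (B ⧸ I) ((B ⧸ I) ⊗[B] N) := inferInstance
  obtain ⟨e⟩ := (Module.Invertible.free_iff_linearEquiv (R := B ⧸ I)
    (M := (B ⧸ I) ⊗[B] N)).mp hfree
  exact ⟨(TensorProduct.quotTensorEquivQuotSMul N I).symm ≪≫ₗ e.restrictScalars B⟩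

/-- `finrank (N / I N) = finrank (B / I)` for an invertible module `N`. -/
theorem finrank_quotient_smul_top (κ : Type*) [Field κ] [Algebra κ B] [Module κ N]
    [IsScalarTower κ B N] (I : Ideal B) [Finite (MaximalSpectrum (B ⧸ I))] :
    Module.finrank κ (N ⧸ (I • ⊤ : Submodule B N)) = Module.finrank κ (B ⧸ I) := by
  obtain ⟨e⟩ := nonempty_quotient_smul_top_equiv (N := N) I
  exact LinearEquiv.finrank_eq (e.restrictScalars κ)

/-- Nakayama: a proper submodule of a finitely generated module stays proper after adding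
`𝔪 N` for a suitable maximal ideal `𝔪`. -/
theorem exists_isMaximal_sup_smul_top_ne_top {M : Type*} [AddCommGroup M] [Module B M]
    [Module.Finite B M] {P : Submodule B M} (hP : P ≠ ⊤) :
    ∃ 𝔪 : Ideal B, 𝔪.IsMaximal ∧ P ⊔ (𝔪 • ⊤ : Submodule B M) ≠ ⊤ := by
  have hann : Module.annihilator B (M ⧸ P) ≠ ⊤ := by
    intro h
    apply hP
    have h1 : (1 : B) ∈ Module.annihilator B (M ⧸ P) := by rw [h]; trivial
    rw [Module.mem_annihilator] at h1
    rw [eq_top_iff]
    intro x _
    have := h1 (Submodule.Quotient.mk x)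
    rwa [one_smul, Submodule.Quotient.mk_eq_zero] at this
  obtain ⟨𝔪, h𝔪, hle⟩ := Ideal.exists_le_maximal _ hann
  refine ⟨𝔪, h𝔪, fun htop => ?_⟩
  have hfg : (⊤ : Submodule B (M ⧸ P)).FG := Module.finite_def.mp inferInstance
  have hsm : (⊤ : Submodule B (M ⧸ P)) ≤ 𝔪 • (⊤ : Submodule B (M ⧸ P)) := by
    intro q _
    obtain ⟨x, rfl⟩ := Submodule.Quotient.mk_surjective P q
    have hx : x ∈ P ⊔ (𝔪 • ⊤ : Submodule B M) := by rw [htop]; trivial
    obtain ⟨y, hy, z, hz, rfl⟩ := Submodule.mem_sup.mp hx
    have hy0 : Submodule.Quotient.mk (p := P) y = 0 := (Submodule.Quotient.mk_eq_zero P).mpr hy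
    rw [Submodule.Quotient.mk_add, hy0, zero_add]
    have : (𝔪 • ⊤ : Submodule B M).map P.mkQ ≤ 𝔪 • (⊤ : Submodule B (M ⧸ P)) := by
      rw [Submodule.map_smul'']
      exact Submodule.smul_mono le_rfl le_top
    exact this (Submodule.mem_map_of_mem hz)
  obtain ⟨r, hr1, hr⟩ :=
    Submodule.exists_sub_one_mem_and_smul_eq_zero_of_fg_of_le_smul 𝔪 _ hfg hsm
  have hrm : r ∈ 𝔪 := hle (by
    rw [Module.mem_annihilator]
    exact fun q => hr q trivial)
  have : (1 : B) ∈ 𝔪 := by
    have := 𝔪.sub_mem hrm hr1
    rwa [sub_sub_cancel] at this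
  exact h𝔪.ne_top ((Ideal.eq_top_iff_one _).mpr this)

/-- A section of an invertible module that is not a generator vanishes at some closed point:
it lies in `𝔪 N` for a maximal ideal `𝔪`. -/
theorem exists_isMaximal_mem_smul_top {s : N} (hs : Submodule.span B {s} ≠ ⊤) :
    ∃ 𝔪 : Ideal B, 𝔪.IsMaximal ∧ s ∈ (𝔪 • ⊤ : Submodule B N) := by
  obtain ⟨𝔪, h𝔪, hne⟩ := exists_isMaximal_sup_smul_top_ne_top hs
  refine ⟨𝔪, h𝔪, ?_⟩
  by_contra hsm
  apply hne
  let _ := Ideal.Quotient.field 𝔪
  obtain ⟨e⟩ := nonempty_quotient_smul_top_equiv (N := N) 𝔪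
  have hs0 : e (Submodule.Quotient.mk s) ≠ 0 := by
    intro h
    apply hsm
    rwa [LinearEquiv.map_eq_zero_iff, Submodule.Quotient.mk_eq_zero] at h
  rw [eq_top_iff]
  intro n _
  obtain ⟨c, hc⟩ := Ideal.Quotient.mk_surjective (e (Submodule.Quotient.mk n) *
    (e (Submodule.Quotient.mk s))⁻¹)
  have h2 : e (Submodule.Quotient.mk (n - c • s)) = 0 := by
    rw [Submodule.Quotient.mk_sub, Submodule.Quotient.mk_smul, map_sub, map_smul]
    change _ - Ideal.Quotient.mk 𝔪 c * _ = 0
    rw [hc, inv_mul_cancel_right₀ hs0, sub_self]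
  rw [LinearEquiv.map_eq_zero_iff, Submodule.Quotient.mk_eq_zero] at h2
  have : n = c • s + (n - c • s) := by abel
  rw [this]
  exact Submodule.add_mem_sup (Submodule.smul_mem _ _ (Submodule.mem_span_singleton_self s)) h2

/-- Conversely a section lying in `𝔪 N` (with `𝔪` a proper ideal) is not a generator. -/
theorem span_singleton_ne_top_of_mem_smul_top {𝔪 : Ideal B} (h𝔪 : 𝔪 ≠ ⊤) {s : N}
    (hs : s ∈ (𝔪 • ⊤ : Submodule B N)) : Submodule.span B {s} ≠ ⊤ := by
  intro htop
  have hle : (⊤ : Submodule B N) ≤ 𝔪 • (⊤ : Submodule B N) := by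
    intro n _
    have hn : n ∈ Submodule.span B {s} := by rw [htop]; trivial
    obtain ⟨b, rfl⟩ := Submodule.mem_span_singleton.mp hn
    exact Submodule.smul_mem _ _ hs
  obtain ⟨r, hr1, hr⟩ := Submodule.exists_sub_one_mem_and_smul_eq_zero_of_fg_of_le_smul 𝔪 _
    (Module.finite_def.mp (inferInstance : Module.Finite B N)) hle
  have hr0 : r = 0 := by
    by_contra hne
    have hinj := (Module.Invertible.toModuleEnd_bijective B (M := N)).injective
    apply hne
    apply hinj
    ext n
    simpa using hr n trivial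
  rw [hr0, zero_sub, neg_mem_iff] at hr1
  exact h𝔪 ((Ideal.eq_top_iff_one _).mpr hr1)

/-- At a closed point with residue field `κ`, the fibre of an invertible module is a line. -/
theorem finrank_quotient_isMaximal (κ : Type*) [Field κ] [Algebra κ B] [Module κ N]
    [IsScalarTower κ B N] (𝔪 : Ideal B) [h𝔪 : 𝔪.IsMaximal]
    (h1 : Module.finrank κ (B ⧸ 𝔪) = 1) :
    Module.finrank κ (N ⧸ (𝔪 • ⊤ : Submodule B N)) = 1 := by
  let _ := Ideal.Quotient.field 𝔪
  rw [finrank_quotient_smul_top κ 𝔪, h1]

end QuotInvertible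

section AlgClosed

variable (κ : Type*) [Field κ] [IsAlgClosed κ] {B : Type*} [CommRing B] [Algebra κ B]
  [Algebra.FiniteType κ B]

/-- Nullstellensatz: residue fields at closed points of a finite type algebra over an
algebraically closed field are `κ`. -/
theorem finrank_quotient_maximal_eq_one (𝔪 : Ideal B) [h𝔪 : 𝔪.IsMaximal] :
    Module.finrank κ (B ⧸ 𝔪) = 1 := by
  let _ := Ideal.Quotient.field 𝔪
  have hfin : Module.Finite κ (B ⧸ 𝔪) := finite_of_finite_type_of_isJacobsonRing κ (B ⧸ 𝔪)
  have hbij : Function.Bijective (algebraMap κ (B ⧸ 𝔪)) :=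
    IsAlgClosed.algebraMap_bijective_of_isIntegral
  have e : κ ≃ₗ[κ] (B ⧸ 𝔪) :=
    LinearEquiv.ofBijective (Algebra.linearMap κ (B ⧸ 𝔪)) hbij
  rw [← LinearEquiv.finrank_eq e, Module.finrank_self]

/-- Every closed point of a finite type algebra over an algebraically closed field is a
`κ`-point: the residue map is surjective on constants. -/
theorem exists_algebraMap_sub_mem (𝔪 : Ideal B) [h𝔪 : 𝔪.IsMaximal] (b : B) :
    ∃ c : κ, b - algebraMap κ B c ∈ 𝔪 := by
  let _ := Ideal.Quotient.field 𝔪
  have hfin : Module.Finite κ (B ⧸ 𝔪) := finite_of_finite_type_of_isJacobsonRing κ (B ⧸ 𝔪)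
  have hbij : Function.Bijective (algebraMap κ (B ⧸ 𝔪)) :=
    IsAlgClosed.algebraMap_bijective_of_isIntegral
  obtain ⟨c, hc⟩ := hbij.surjective (Ideal.Quotient.mk 𝔪 b)
  refine ⟨c, ?_⟩
  rw [← Ideal.Quotient.eq_zero_iff_mem, map_sub, ← hc]
  exact sub_self _

end AlgClosed

section FiniteSection

variable (κ : Type*) [Field κ] {B : Type*} [CommRing B] [IsDomain B] [Algebra κ B]
  [Algebra.FiniteType κ B] [Ring.DimensionLEOne B] {N : Type*} [AddCommGroup N] [Module B N]
  [Module.Invertible B N] [Module κ N] [IsScalarTower κ B N]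

/-- The cokernel of a nonzero section of an invertible module on a one-dimensional domain of
finite type over a field is finite-dimensional ("finitely many zeros"). -/
theorem finite_quotient_span_singleton {s : N} (hs : s ≠ 0) :
    Module.Finite κ (N ⧸ Submodule.span B {s}) := by
  apply finite_of_torsion κ (B := B)
  intro t
  obtain ⟨n, rfl⟩ := Submodule.Quotient.mk_surjective _ t
  obtain ⟨b, hb0, hb⟩ := exists_smul_mem_span_singleton (B := B) hs n
  exact ⟨b, hb0, by rw [← Submodule.Quotient.mk_smul, Submodule.Quotient.mk_eq_zero]; exact hb⟩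

omit [IsDomain B] in
/-- `N / g N` is finite-dimensional of the same dimension as `B / g B`. -/
theorem finrank_quotient_span_smul_top {g : B} (hg : g ≠ 0) :
    Module.finrank κ (N ⧸ (Ideal.span {g} • ⊤ : Submodule B N)) =
      Module.finrank κ (B ⧸ Ideal.span {g}) := by
  have hfin : Module.Finite κ (B ⧸ Ideal.span {g}) :=
    finite_quotient_of_ne_bot κ (by simpa using hg)
  have : IsArtinianRing (B ⧸ Ideal.span {g}) :=
    (Module.finite_iff_isArtinianRing κ (B ⧸ Ideal.span {g})).mp hfin
  exact finrank_quotient_smul_top κ (Ideal.span {g})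

end FiniteSection

end Fermat.Agent.S25.ATLAS.TW.H190
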