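/-
S25 (Jacobian), package A1, piece RIGID.  Author: helper1308.
Built on `Core.lean` (helper5425), `A1/Basic.lean` (helper7630, verbatim), `H1308/Tensor.lean`,
`H1308/TensorIso.lean`.

Rigidifications of glued modules along an `R`-point `ε : B₁ →ₐ[R] R` of the first chart:
an `ε`-semilinear surjection `ρ : N₁ → R`.  For line bundles this is the same as an isomorphism
`R ⊗[B₁, ε] N₁ ≃ R` (the fibre at `ε` is trivialised).
-/
import Fermat.Agent.S25.ATLAS.TW.Dep.TensorIso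

set_option autoImplicit false

universe u

namespace Fermat.Agent.S25.ATLAS.TW.T1308

open scoped TensorProduct

/-! ## Two facts on invertible modules -/

section Invertible

variable {B : Type*} [CommRing B] {M : Type*} [AddCommGroup M] [Module B M]

/-- The rank-one identity `φ(m) • n = φ(n) • m` on an invertible module. -/
theorem invertible_apply_smul_comm [Module.Invertible B M] (φ : M →ₗ[B] B) (m n : M) :
    φ m • n = φ n • m := by
  have h := congrArg (TensorProduct.lift ((LinearMap.lsmul B M).comp φ))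
    (Module.Invertible.tmul_comm (R := B) (m₁ := m) (m₂ := n))
  simpa using h

/-- On an invertible module, the identity is a finite sum `n = ∑ φᵢ(n) • mᵢ`. -/
theorem invertible_exists_dual_basis [Module.Invertible B M] :
    ∃ s : Finset ((M →ₗ[B] B) × M), ∀ n : M, n = ∑ i ∈ s, i.1 n • i.2 := by
  classical
  obtain ⟨S, hS⟩ := TensorProduct.exists_finset ((Module.Invertible.linearEquiv B M).symm 1)
  have h1 : ∑ i ∈ S, (i.1 : M →ₗ[B] B) i.2 = 1 := by
    have := congrArg (Module.Invertible.linearEquiv B M) hS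
    rw [LinearEquiv.apply_symm_apply, map_sum] at this
    rw [this]
    rfl
  refine ⟨S, fun n => ?_⟩
  calc n = (∑ i ∈ S, (i.1 : M →ₗ[B] B) i.2) • n := by rw [h1, one_smul]
    _ = ∑ i ∈ S, (i.1 : M →ₗ[B] B) i.2 • n := Finset.sum_smul
    _ = ∑ i ∈ S, i.1 n • i.2 := Finset.sum_congr rfl fun i _ => invertible_apply_smul_comm i.1 i.2 n

end Invertible

/-! ## Rigidifications -/

section Rigid

variable {R : Type u} [CommRing R] {𝔹 : TwoChart R} (ε : 𝔹.B₁ →ₐ[R] R)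

/-- A rigidification of the glued module `N` along the `R`-point `ε` of the first chart:
an `ε`-semilinear surjection `N₁ → R`.  (For a line bundle this is the same as a trivialisation
of the fibre `N₁ / 𝔪_ε N₁`, see `Rigidification.mem_smul_top_of_ρ_eq_zero`.) -/
structure Rigidification (N : GluedModule 𝔹) where
  ρ : N.N₁ →ₗ[R] R
  ρ_smul : ∀ (b : 𝔹.B₁) (n : N.N₁), ρ (b • n) = ε b * ρ n
  surj : Function.Surjective ρ

/-- `N` admits a rigidification along `ε`. -/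
def Rigid (N : GluedModule 𝔹) : Prop := Nonempty (Rigidification ε N)

variable {ε}

theorem eps_algebraMap (r : R) : ε (algebraMap R 𝔹.B₁ r) = r := by
  rw [ε.commutes]
  rfl

namespace Rigidification

variable {N N' : GluedModule 𝔹}

theorem exists_eq_one (ρ : Rigidification ε N) : ∃ n₀ : N.N₁, ρ.ρ n₀ = 1 := ρ.surj 1

/-- The rank-one identity seen through a rigidification. -/
theorem eps_apply_mul (ρ : Rigidification ε N) [Module.Invertible 𝔹.B₁ N.N₁]
    (φ : N.N₁ →ₗ[𝔹.B₁] 𝔹.B₁) (n n₀ : N.N₁) :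
    ε (φ n) * ρ.ρ n₀ = ε (φ n₀) * ρ.ρ n := by
  rw [← ρ.ρ_smul, ← ρ.ρ_smul, invertible_apply_smul_comm φ n n₀]

/-- Any `ε`-semilinear additive map on a rigidified line bundle is a multiple of `ρ`. -/
theorem semilinear_eq (ρ : Rigidification ε N) [Module.Invertible 𝔹.B₁ N.N₁]
    (χ : N.N₁ →+ R) (hχ : ∀ (b : 𝔹.B₁) (n : N.N₁), χ (b • n) = ε b * χ n)
    {n₀ : N.N₁} (h₀ : ρ.ρ n₀ = 1) (n : N.N₁) : χ n = χ n₀ * ρ.ρ n := by
  obtain ⟨s, hs⟩ := invertible_exists_dual_basis (B := 𝔹.B₁) (M := N.N₁)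
  have key : ∀ (φ : N.N₁ →ₗ[𝔹.B₁] 𝔹.B₁), ε (φ n) = ε (φ n₀) * ρ.ρ n := fun φ => by
    have := ρ.eps_apply_mul φ n n₀
    rwa [h₀, mul_one] at this
  conv_lhs => rw [hs n]
  conv_rhs => rw [hs n₀]
  rw [map_sum, map_sum, Finset.sum_mul]
  refine Finset.sum_congr rfl fun i _ => ?_
  rw [hχ, hχ, key i.1]
  ring

/-- For a line bundle, the kernel of a rigidification is `𝔪_ε N₁`: the fibre at `ε` is
identified with `R`. -/
theorem mem_smul_top_of_ρ_eq_zero (ρ : Rigidification ε N) [Module.Invertible 𝔹.B₁ N.N₁]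
    {n : N.N₁} (hn : ρ.ρ n = 0) :
    n ∈ (RingHom.ker (ε : 𝔹.B₁ →+* R)) • (⊤ : Submodule 𝔹.B₁ N.N₁) := by
  obtain ⟨n₀, h₀⟩ := ρ.exists_eq_one
  obtain ⟨s, hs⟩ := invertible_exists_dual_basis (B := 𝔹.B₁) (M := N.N₁)
  rw [hs n]
  refine Submodule.sum_mem _ fun i _ => Submodule.smul_mem_smul ?_ Submodule.mem_top
  have := ρ.eps_apply_mul i.1 n n₀
  rw [h₀, mul_one, hn, mul_zero] at this
  exact this

theorem ρ_eq_zero_of_mem_smul_top (ρ : Rigidification ε N) {n : N.N₁}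
    (hn : n ∈ (RingHom.ker (ε : 𝔹.B₁ →+* R)) • (⊤ : Submodule 𝔹.B₁ N.N₁)) : ρ.ρ n = 0 := by
  refine Submodule.smul_induction_on hn (fun b hb m _ => ?_) (fun x y hx hy => ?_)
  · rw [ρ.ρ_smul]
    have hb' : ε b = 0 := hb
    rw [hb', zero_mul]
  · rw [map_add, hx, hy, add_zero]

/-- The canonical rigidification of the structure sheaf. -/
def unit : Rigidification ε (GluedModule.unit 𝔹) where
  ρ := ε.toLinearMap
  ρ_smul := fun b n => by
    change ε (b * n) = ε b * ε n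
    rw [map_mul]
  surj := fun r => ⟨algebraMap R 𝔹.B₁ r, eps_algebraMap r⟩

@[simp] theorem unit_ρ (b : 𝔹.B₁) : (unit (ε := ε)).ρ b = ε b := rfl

/-- Transport of a rigidification along an isomorphism. -/
def map (ρ : Rigidification ε N) (e : GluedModule.Iso N N') : Rigidification ε N' where
  ρ := ρ.ρ ∘ₗ (e.e₁.symm.toLinearMap.restrictScalars R)
  ρ_smul := fun b n => by
    change ρ.ρ (e.e₁.symm (b • n)) = ε b * ρ.ρ (e.e₁.symm n)
    rw [map_smul, ρ.ρ_smul]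
  surj := fun r => by
    obtain ⟨n, hn⟩ := ρ.surj r
    exact ⟨e.e₁ n, by
      change ρ.ρ (e.e₁.symm (e.e₁ n)) = r
      rw [LinearEquiv.symm_apply_apply, hn]⟩

@[simp] theorem map_ρ (ρ : Rigidification ε N) (e : GluedModule.Iso N N') (n : N'.N₁) :
    (ρ.map e).ρ n = ρ.ρ (e.e₁.symm n) := rfl

/-- A rigidification of `N` is a rigidification of every twist `N⟨n⟩`. -/
def twist (ρ : Rigidification ε N) (n : ℤ) : Rigidification ε (N.twist n) where
  ρ := ρ.ρ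
  ρ_smul := ρ.ρ_smul
  surj := ρ.surj

/-- Multiply a rigidification by a unit of the base. -/
def smulUnit (c : Rˣ) (ρ : Rigidification ε N) : Rigidification ε N where
  ρ := (c : R) • ρ.ρ
  ρ_smul := fun b n => by
    change (c : R) * ρ.ρ (b • n) = ε b * ((c : R) * ρ.ρ n)
    rw [ρ.ρ_smul]
    ring
  surj := fun r => by
    obtain ⟨n, hn⟩ := ρ.surj ((c⁻¹ : Rˣ) * r)
    exact ⟨n, by
      change (c : R) * ρ.ρ n = r
      rw [hn, ← mul_assoc, Units.mul_inv, one_mul]⟩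

/-- The additive map underlying the tensor product of two rigidifications. -/
def tensorAux (ρ : Rigidification ε N) (ρ' : Rigidification ε N') :
    N.N₁ ⊗[𝔹.B₁] N'.N₁ →+ R :=
  (TensorProduct.lid R R).toLinearMap.toAddMonoidHom.comp
    (tensorAddHom ε ρ.ρ ρ'.ρ (map_add _) (map_add _)
      (fun b n => by rw [ρ.ρ_smul]; rfl) (fun b n => by rw [ρ'.ρ_smul]; rfl))

theorem tensorAux_tmul (ρ : Rigidification ε N) (ρ' : Rigidification ε N') (n : N.N₁)
    (n' : N'.N₁) : tensorAux ρ ρ' (n ⊗ₜ[𝔹.B₁] n') = ρ.ρ n * ρ'.ρ n' := by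
  change TensorProduct.lid R R (ρ.ρ n ⊗ₜ[R] ρ'.ρ n') = _
  rw [TensorProduct.lid_tmul, smul_eq_mul]

theorem tensorAux_smul (ρ : Rigidification ε N) (ρ' : Rigidification ε N') (b : 𝔹.B₁)
    (t : N.N₁ ⊗[𝔹.B₁] N'.N₁) : tensorAux ρ ρ' (b • t) = ε b * tensorAux ρ ρ' t := by
  induction t using TensorProduct.induction_on with
  | zero => simp
  | tmul n n' =>
    rw [TensorProduct.smul_tmul', tensorAux_tmul, tensorAux_tmul, ρ.ρ_smul, mul_assoc]
  | add x y hx hy => rw [smul_add, map_add, hx, hy, map_add, mul_add]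

/-- The tensor product of two rigidifications: `n ⊗ n' ↦ ρ n * ρ' n'`. -/
def tensor (ρ : Rigidification ε N) (ρ' : Rigidification ε N') :
    Rigidification ε (tensor N N') where
  ρ :=
    { toFun := tensorAux ρ ρ'
      map_add' := map_add _
      map_smul' := fun r t => by
        rw [← algebraMap_smul 𝔹.B₁ r t, tensorAux_smul, eps_algebraMap]
        rfl }
  ρ_smul := tensorAux_smul ρ ρ'
  surj := fun r => by
    obtain ⟨n, hn⟩ := ρ.surj r
    obtain ⟨n', hn'⟩ := ρ'.exists_eq_one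
    exact ⟨n ⊗ₜ[𝔹.B₁] n', by
      change tensorAux ρ ρ' (n ⊗ₜ[𝔹.B₁] n') = r
      rw [tensorAux_tmul, hn, hn', mul_one]⟩

@[simp] theorem tensor_ρ_tmul (ρ : Rigidification ε N) (ρ' : Rigidification ε N') (n : N.N₁)
    (n' : N'.N₁) : (ρ.tensor ρ').ρ (n ⊗ₜ[𝔹.B₁] n') = ρ.ρ n * ρ'.ρ n' :=
  tensorAux_tmul ρ ρ' n n'

/-- The dual rigidification on the dual of a rigidified line bundle: `φ ↦ ε (φ n₀)` for any
`n₀` with `ρ n₀ = 1`; characterised by `ε (φ n) = ρ^∨ φ * ρ n` (`dual_ρ_mul`). -/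
noncomputable def dual (ρ : Rigidification ε N) (h : N.IsLineBundle) :
    Rigidification ε (lbDual N h) where
  ρ :=
    { toFun := fun φ => ε (φ ρ.exists_eq_one.choose)
      map_add' := fun φ ψ => by rw [LinearMap.add_apply, map_add]
      map_smul' := fun r φ => by
        rw [LinearMap.smul_apply, ← algebraMap_smul 𝔹.B₁ r (φ _), smul_eq_mul, map_mul,
          eps_algebraMap]
        rfl }
  ρ_smul := fun b φ => by
    change ε ((b • φ) _) = ε b * ε (φ _)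
    rw [LinearMap.smul_apply, smul_eq_mul, map_mul]
  surj := by
    have := h.inv₁
    have h₀ := ρ.exists_eq_one.choose_spec
    obtain ⟨s, hs⟩ := invertible_exists_dual_basis (B := 𝔹.B₁) (M := N.N₁)
    have h1 : (1 : R) = ∑ i ∈ s, ε (i.1 ρ.exists_eq_one.choose) * ρ.ρ i.2 := by
      conv_lhs => rw [← h₀, hs ρ.exists_eq_one.choose, map_sum]
      exact Finset.sum_congr rfl fun i _ => ρ.ρ_smul _ _
    intro r
    refine ⟨∑ i ∈ s, (r * ρ.ρ i.2) • (i.1 : N.N₁ →ₗ[𝔹.B₁] 𝔹.B₁), ?_⟩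
    change ε ((∑ i ∈ s, (r * ρ.ρ i.2) • (i.1 : N.N₁ →ₗ[𝔹.B₁] 𝔹.B₁)) ρ.exists_eq_one.choose) = r
    rw [LinearMap.sum_apply, map_sum]
    calc ∑ i ∈ s, ε (((r * ρ.ρ i.2) • (i.1 : N.N₁ →ₗ[𝔹.B₁] 𝔹.B₁)) ρ.exists_eq_one.choose)
        = ∑ i ∈ s, r * (ε (i.1 ρ.exists_eq_one.choose) * ρ.ρ i.2) :=
          Finset.sum_congr rfl fun i _ => by
            rw [LinearMap.smul_apply, ← algebraMap_smul 𝔹.B₁ (r * ρ.ρ i.2), smul_eq_mul, map_mul,
              eps_algebraMap]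
            ring
      _ = r := by rw [← Finset.mul_sum, ← h1, mul_one]

/-- The defining property of the dual rigidification: evaluation `N^∨ ⊗ N → O` is compatible
with the rigidifications. -/
theorem dual_ρ_mul (ρ : Rigidification ε N) (h : N.IsLineBundle) (φ : N.N₁ →ₗ[𝔹.B₁] 𝔹.B₁)
    (n : N.N₁) : (ρ.dual h).ρ φ * ρ.ρ n = ε (φ n) := by
  have := h.inv₁
  have := ρ.eps_apply_mul φ n ρ.exists_eq_one.choose
  rw [ρ.exists_eq_one.choose_spec, mul_one] at this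
  exact this.symm

end Rigidification

/-! ## Rigid isomorphisms -/

/-- An isomorphism of glued modules compatible with given rigidifications. -/
def IsRigidIso {N N' : GluedModule 𝔹} (ρ : Rigidification ε N) (ρ' : Rigidification ε N')
    (e : GluedModule.Iso N N') : Prop :=
  ∀ n : N.N₁, ρ'.ρ (e.e₁ n) = ρ.ρ n

/-- Multiply an isomorphism of glued modules by a unit of the base ring. -/
def isoSmulUnit {N N' : GluedModule 𝔹} (c : Rˣ) (e : GluedModule.Iso N N') :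
    GluedModule.Iso N N' where
  e₁ := e.e₁.trans (LinearEquiv.smulOfUnit (Units.map (algebraMap R 𝔹.B₁).toMonoidHom c))
  e₂ := e.e₂.trans (LinearEquiv.smulOfUnit (Units.map (algebraMap R 𝔹.B₂).toMonoidHom c))
  e₁₂ := e.e₁₂.trans (LinearEquiv.smulOfUnit (Units.map (algebraMap R 𝔹.B₁₂).toMonoidHom c))
  comm₁ := fun n => by
    change algebraMap R 𝔹.B₁₂ c • e.e₁₂ (N.ι₁ n) = N'.ι₁ (algebraMap R 𝔹.B₁ c • e.e₁ n)
    rw [e.comm₁, algebraMap_smul, algebraMap_smul, map_smul]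
  comm₂ := fun n => by
    change algebraMap R 𝔹.B₁₂ c • e.e₁₂ (N.ι₂ n) = N'.ι₂ (algebraMap R 𝔹.B₂ c • e.e₂ n)
    rw [e.comm₂, algebraMap_smul, algebraMap_smul, map_smul]

theorem isoSmulUnit_e₁ {N N' : GluedModule 𝔹} (c : Rˣ) (e : GluedModule.Iso N N') (n : N.N₁) :
    (isoSmulUnit c e).e₁ n = (c : R) • e.e₁ n := by
  change algebraMap R 𝔹.B₁ c • e.e₁ n = _
  rw [algebraMap_smul]

/-- Any isomorphism between rigidified line bundles can be normalised (by a unit of the base)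
to a rigid isomorphism. -/
theorem exists_isRigidIso {N N' : GluedModule 𝔹} (h : N.IsLineBundle) (ρ : Rigidification ε N)
    (ρ' : Rigidification ε N') (e : GluedModule.Iso N N') :
    ∃ c : Rˣ, IsRigidIso ρ ρ' (isoSmulUnit c e) := by
  have := h.inv₁
  obtain ⟨n₀, h₀⟩ := ρ.exists_eq_one
  -- `χ := ρ' ∘ e₁` is `ε`-semilinear, hence `χ = χ n₀ * ρ`
  let χ : N.N₁ →+ R := ρ'.ρ.toAddMonoidHom.comp e.e₁.toLinearMap.toAddMonoidHom
  have hχ : ∀ (b : 𝔹.B₁) (n : N.N₁), χ (b • n) = ε b * χ n := fun b n => by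
    change ρ'.ρ (e.e₁ (b • n)) = ε b * ρ'.ρ (e.e₁ n)
    rw [map_smul, ρ'.ρ_smul]
  have key : ∀ n, ρ'.ρ (e.e₁ n) = ρ'.ρ (e.e₁ n₀) * ρ.ρ n := fun n => ρ.semilinear_eq χ hχ h₀ n
  -- `c := χ n₀` is a unit because `χ` is onto
  obtain ⟨m, hm⟩ := ρ'.surj 1
  have hu : ρ'.ρ (e.e₁ n₀) * ρ.ρ (e.e₁.symm m) = 1 := by
    rw [← key, LinearEquiv.apply_symm_apply, hm]
  let c : Rˣ := ⟨ρ'.ρ (e.e₁ n₀), ρ.ρ (e.e₁.symm m), hu, by rw [mul_comm]; exact hu⟩
  refine ⟨c⁻¹, fun n => ?_⟩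
  rw [isoSmulUnit_e₁, map_smul, key n, smul_eq_mul, ← mul_assoc]
  change ((c⁻¹ : Rˣ) : R) * (c : R) * ρ.ρ n = ρ.ρ n
  rw [Units.inv_mul, one_mul]

/-- Being rigid is invariant under isomorphism. -/
theorem Rigid.of_iso {N N' : GluedModule 𝔹} (h : Rigid ε N) (e : GluedModule.Iso N N') :
    Rigid ε N' :=
  ⟨h.some.map e⟩

theorem rigid_unit : Rigid ε (GluedModule.unit 𝔹) := ⟨Rigidification.unit⟩

theorem Rigid.tensor {N N' : GluedModule 𝔹} (h : Rigid ε N) (h' : Rigid ε N') :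
    Rigid ε (tensor N N') :=
  ⟨h.some.tensor h'.some⟩

theorem Rigid.twist {N : GluedModule 𝔹} (h : Rigid ε N) (n : ℤ) : Rigid ε (N.twist n) :=
  ⟨h.some.twist n⟩

theorem Rigid.lbDual {N : GluedModule 𝔹} (h : Rigid ε N) (hN : N.IsLineBundle) :
    Rigid ε (lbDual N hN) :=
  ⟨h.some.dual hN⟩

/-! ## Endomorphisms of line bundles and uniqueness of rigid isomorphisms -/

/-- `H⁰(O) = R`: every global function is a constant of the base. -/
def HasConstGlobal (𝔹 : TwoChart R) : Prop :=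
  ∀ (b₁ : 𝔹.B₁) (b₂ : 𝔹.B₂), 𝔹.r₁ b₁ = 𝔹.r₂ b₂ →
    ∃ c : R, b₁ = algebraMap R 𝔹.B₁ c ∧ b₂ = algebraMap R 𝔹.B₂ c

/-- If `H⁰(O) = R`, every endomorphism of a line bundle is multiplication by a scalar of `R`. -/
theorem exists_scalar_of_end {N : GluedModule 𝔹} (hglob : HasConstGlobal 𝔹) (h : N.IsLineBundle)
    (φ : GluedModule.Hom N N) :
    ∃ c : R, (∀ n, φ.φ₁ n = c • n) ∧ (∀ n, φ.φ₂ n = c • n) := by
  have := h.inv₁
  have := h.inv₂
  have := isLineBundle_inv₁₂ h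
  obtain ⟨b₁, hb₁⟩ := (Module.Invertible.toModuleEnd_bijective 𝔹.B₁ N.N₁).surjective φ.φ₁
  obtain ⟨b₂, hb₂⟩ := (Module.Invertible.toModuleEnd_bijective 𝔹.B₂ N.N₂).surjective φ.φ₂
  have h₁ : ∀ n, φ.φ₁ n = b₁ • n := fun n => by rw [← hb₁]; rfl
  have h₂ : ∀ n, φ.φ₂ n = b₂ • n := fun n => by rw [← hb₂]; rfl
  -- on the overlap `φ₁₂` is multiplication by `r₁ b₁` and by `r₂ b₂`
  have e₁ : φ.φ₁₂ = 𝔹.r₁ b₁ • LinearMap.id := linearMap₁₂_ext₁ N _ _ fun n => by
    rw [φ.comm₁, h₁, N.ι₁_smul]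
    rfl
  have e₂ : φ.φ₁₂ = 𝔹.r₂ b₂ • LinearMap.id := linearMap₁₂_ext₂ N _ _ fun n => by
    rw [φ.comm₂, h₂, N.ι₂_smul]
    rfl
  have hb : 𝔹.r₁ b₁ = 𝔹.r₂ b₂ := by
    apply (Module.Invertible.toModuleEnd_bijective 𝔹.B₁₂ N.N₁₂).injective
    ext y
    have := congrArg (fun ψ : N.N₁₂ →ₗ[𝔹.B₁₂] N.N₁₂ => ψ y) (e₁.symm.trans e₂)
    exact this
  obtain ⟨c, hc₁, hc₂⟩ := hglob b₁ b₂ hb
  refine ⟨c, fun n => ?_, fun n => ?_⟩
  · rw [h₁, hc₁, algebraMap_smul]
  · rw [h₂, hc₂, algebraMap_smul]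

/-- If `H⁰(O) = R`, two rigid isomorphisms between rigidified line bundles have the same chart
components (so a rigid isomorphism is unique). -/
theorem isRigidIso_unique {N N' : GluedModule 𝔹} (hglob : HasConstGlobal 𝔹)
    (h : N.IsLineBundle) (ρ : Rigidification ε N) (ρ' : Rigidification ε N')
    (e e' : GluedModule.Iso N N') (he : IsRigidIso ρ ρ' e) (he' : IsRigidIso ρ ρ' e') :
    e.e₁ = e'.e₁ ∧ e.e₂ = e'.e₂ ∧ e.e₁₂ = e'.e₁₂ := by
  obtain ⟨c, hc₁, hc₂⟩ := exists_scalar_of_end hglob h (e'.symm.toHom.comp e.toHom)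
  have h₁ : ∀ n, e.e₁ n = c • e'.e₁ n := fun n => by
    have := hc₁ n
    change e'.e₁.symm (e.e₁ n) = c • n at this
    rw [LinearEquiv.symm_apply_eq] at this
    rw [this, ← algebraMap_smul 𝔹.B₁ c n, map_smul, algebraMap_smul]
  have h₂ : ∀ n, e.e₂ n = c • e'.e₂ n := fun n => by
    have := hc₂ n
    change e'.e₂.symm (e.e₂ n) = c • n at this
    rw [LinearEquiv.symm_apply_eq] at this
    rw [this, ← algebraMap_smul 𝔹.B₂ c n, map_smul, algebraMap_smul]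
  -- the rigidifications force `c = 1`
  obtain ⟨n₀, h₀⟩ := ρ.exists_eq_one
  have hc : c = 1 := by
    have := he n₀
    rw [h₁, map_smul, he' n₀, h₀, smul_eq_mul, mul_one] at this
    exact this
  subst hc
  have E₁ : e.e₁ = e'.e₁ := LinearEquiv.ext fun n => by rw [h₁, one_smul]
  have E₂ : e.e₂ = e'.e₂ := LinearEquiv.ext fun n => by rw [h₂, one_smul]
  refine ⟨E₁, E₂, ?_⟩
  apply LinearEquiv.toLinearMap_injective
  exact linearMap₁₂_ext₁ N _ _ fun n => by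
    change e.e₁₂ (N.ι₁ n) = e'.e₁₂ (N.ι₁ n)
    rw [e.comm₁, e'.comm₁, E₁]

end Rigid

end Fermat.Agent.S25.ATLAS.TW.T1308
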